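import Mathlib

namespace Fermat.Agent.S51

/-- A positive integer that is a coprime factor of a fourth power is a fourth power. -/
theorem deven_pow4_left (U V c : ℤ) (hU : 0 < U) (hcop : IsCoprime U V) (h : U * V = c ^ 4) :
    ∃ a : ℤ, 0 < a ∧ U = a ^ 4 := by
  obtain ⟨d, hd⟩ := exists_associated_pow_of_mul_eq_pow' hcop h
  rw [Int.associated_iff] at hd
  have hd4 : 0 ≤ d ^ 4 := by positivity
  have hUd : U = d ^ 4 := by
    rcases hd with hd | hd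
    · exact hd.symm
    · exfalso; linarith
  have hd0 : d ≠ 0 := by
    rintro rfl
    norm_num at hUd
    omega
  refine ⟨|d|, abs_pos.mpr hd0, ?_⟩
  rw [hUd]
  have : |d| ^ 4 = d ^ 4 := by
    have := abs_pow d 4
    rw [← this]
    exact abs_of_nonneg hd4
  exact this.symm

theorem deven_pow4 (U V c : ℤ) (hU : 0 < U) (hV : 0 < V) (hc : 0 < c) (hcop : IsCoprime U V)
    (h : U * V = c ^ 4) :
    ∃ a b : ℤ, 0 < a ∧ 0 < b ∧ a * b = c ∧ U = a ^ 4 ∧ V = b ^ 4 := by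
  obtain ⟨a, ha, hUa⟩ := deven_pow4_left U V c hU hcop h
  obtain ⟨b, hb, hVb⟩ := deven_pow4_left V U c hV hcop.symm (by rw [mul_comm]; exact h)
  refine ⟨a, b, ha, hb, ?_, hUa, hVb⟩
  have h4 : (a * b) ^ 4 = c ^ 4 := by rw [mul_pow, ← hUa, ← hVb]; exact h
  exact (pow_left_inj₀ (by positivity) hc.le (by norm_num)).mp h4

/-- Coprime positive factorisations of `15 c^4`. -/
theorem deven_split (U V c : ℤ) (hU : 0 < U) (hV : 0 < V) (hc : 0 < c) (hcop : IsCoprime U V)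
    (h : U * V = 15 * c ^ 4) :
    ∃ a b : ℤ, 0 < a ∧ 0 < b ∧ a * b = c ∧
      ((U = a ^ 4 ∧ V = 15 * b ^ 4) ∨ (U = 15 * a ^ 4 ∧ V = b ^ 4) ∨
       (U = 3 * a ^ 4 ∧ V = 5 * b ^ 4) ∨ (U = 5 * a ^ 4 ∧ V = 3 * b ^ 4)) := by
  have h3 : (3 : ℤ) ∣ U * V := by rw [h]; exact ⟨5 * c ^ 4, by ring⟩
  have h5 : (5 : ℤ) ∣ U * V := by rw [h]; exact ⟨3 * c ^ 4, by ring⟩
  have p3 : Prime (3 : ℤ) := Int.prime_three
  have p5 : Prime (5 : ℤ) := by norm_num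
  have c35 : IsCoprime (3 : ℤ) 5 := by norm_num
  rcases p3.dvd_or_dvd h3 with h3U | h3V
  · rcases p5.dvd_or_dvd h5 with h5U | h5V
    · -- 15 ∣ U
      obtain ⟨U', rfl⟩ : (3 * 5 : ℤ) ∣ U := c35.mul_dvd h3U h5U
      have hU' : 0 < U' := by linarith
      have hcop' : IsCoprime U' V := IsCoprime.of_mul_left_right hcop
      have h' : U' * V = c ^ 4 := by linarith
      obtain ⟨a, b, ha, hb, hab, hUa, hVb⟩ := deven_pow4 U' V c hU' hV hc hcop' h'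
      exact ⟨a, b, ha, hb, hab, Or.inr (Or.inl ⟨by rw [hUa]; ring, hVb⟩)⟩
    · obtain ⟨U', rfl⟩ := h3U
      obtain ⟨V', rfl⟩ := h5V
      have hU' : 0 < U' := by linarith
      have hV' : 0 < V' := by linarith
      have hcop' : IsCoprime U' V' :=
        IsCoprime.of_mul_left_right (IsCoprime.of_mul_right_right hcop)
      have h' : U' * V' = c ^ 4 := by linarith
      obtain ⟨a, b, ha, hb, hab, hUa, hVb⟩ := deven_pow4 U' V' c hU' hV' hc hcop' h'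
      exact ⟨a, b, ha, hb, hab, Or.inr (Or.inr (Or.inl ⟨by rw [hUa], by rw [hVb]⟩))⟩
  · rcases p5.dvd_or_dvd h5 with h5U | h5V
    · obtain ⟨U', rfl⟩ := h5U
      obtain ⟨V', rfl⟩ := h3V
      have hU' : 0 < U' := by linarith
      have hV' : 0 < V' := by linarith
      have hcop' : IsCoprime U' V' :=
        IsCoprime.of_mul_left_right (IsCoprime.of_mul_right_right hcop)
      have h' : U' * V' = c ^ 4 := by linarith
      obtain ⟨a, b, ha, hb, hab, hUa, hVb⟩ := deven_pow4 U' V' c hU' hV' hc hcop' h'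
      exact ⟨a, b, ha, hb, hab, Or.inr (Or.inr (Or.inr ⟨by rw [hUa], by rw [hVb]⟩))⟩
    · obtain ⟨V', rfl⟩ : (3 * 5 : ℤ) ∣ V := c35.mul_dvd h3V h5V
      have hV' : 0 < V' := by linarith
      have hcop' : IsCoprime U V' := IsCoprime.of_mul_right_right hcop
      have h' : U * V' = c ^ 4 := by linarith
      obtain ⟨a, b, ha, hb, hab, hUa, hVb⟩ := deven_pow4 U V' c hU hV' hc hcop' h'
      exact ⟨a, b, ha, hb, hab, Or.inl ⟨hUa, by rw [hVb]; ring⟩⟩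

theorem deven_sq_odd (x : ℤ) (h : ¬ (2 : ℤ) ∣ x) : ∃ t : ℤ, x ^ 2 = 8 * t + 1 := by
  obtain ⟨k, rfl⟩ : ∃ k, x = 2 * k + 1 := ⟨x / 2, by omega⟩
  obtain ⟨r, hr⟩ := Int.even_mul_succ_self k
  exact ⟨r, by linear_combination 4 * hr⟩

theorem deven_sq_even (x : ℤ) (h : (2 : ℤ) ∣ x) : ∃ t : ℤ, x ^ 2 = 4 * t := by
  obtain ⟨k, rfl⟩ := h
  exact ⟨k ^ 2, by ring⟩

theorem deven_two_dvd_pow (x : ℤ) (n : ℕ) (h : ¬ (2 : ℤ) ∣ x) : ¬ (2 : ℤ) ∣ x ^ n :=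
  fun h' => h (Int.prime_two.dvd_of_dvd_pow h')

/-- mod 8 obstruction, `a` even and `b` odd. -/
theorem deven_mod8_a (M a b u v : ℤ) (hM : ¬ (2 : ℤ) ∣ M) (ha : (2 : ℤ) ∣ a)
    (hb : ¬ (2 : ℤ) ∣ b) (h : M ^ 2 = u * a ^ 4 + 14 * a ^ 2 * b ^ 2 - v * b ^ 4) :
    (8 : ℤ) ∣ v + 1 := by
  obtain ⟨m, hm⟩ := deven_sq_odd M hM
  obtain ⟨s, hs⟩ := deven_sq_even a ha
  obtain ⟨t, ht⟩ := deven_sq_odd b hb
  have h' : 8 * m + 1 = u * (4 * s) ^ 2 + 14 * (4 * s) * (8 * t + 1) - v * (8 * t + 1) ^ 2 := by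
    rw [← hm, ← hs, ← ht, h]; ring
  exact ⟨2 * u * s ^ 2 + 7 * s * (8 * t + 1) - v * (8 * t ^ 2 + 2 * t) - m, by
    linear_combination h'⟩

/-- mod 8 obstruction, `a` odd and `b` even. -/
theorem deven_mod8_b (M a b u v : ℤ) (hM : ¬ (2 : ℤ) ∣ M) (ha : ¬ (2 : ℤ) ∣ a)
    (hb : (2 : ℤ) ∣ b) (h : M ^ 2 = u * a ^ 4 + 14 * a ^ 2 * b ^ 2 - v * b ^ 4) :
    (8 : ℤ) ∣ u - 1 := by
  obtain ⟨m, hm⟩ := deven_sq_odd M hM
  obtain ⟨s, hs⟩ := deven_sq_odd a ha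
  obtain ⟨t, ht⟩ := deven_sq_even b hb
  have h' : 8 * m + 1 = u * (8 * s + 1) ^ 2 + 14 * (8 * s + 1) * (4 * t) - v * (4 * t) ^ 2 := by
    rw [← hm, ← hs, ← ht, h]; ring
  exact ⟨m - u * (8 * s ^ 2 + 2 * s) - 7 * (8 * s + 1) * t + 2 * v * t ^ 2, by
    linear_combination (-1) * h'⟩

theorem deven_parity (N a b u v : ℤ) (hN : ¬ (2 : ℤ) ∣ N) (hu : ¬ (2 : ℤ) ∣ u)
    (hv : ¬ (2 : ℤ) ∣ v) (h : N = u * a ^ 4 + v * b ^ 4) :
    ((2 : ℤ) ∣ a ∧ ¬ (2 : ℤ) ∣ b) ∨ (¬ (2 : ℤ) ∣ a ∧ (2 : ℤ) ∣ b) := by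
  by_cases ha : (2 : ℤ) ∣ a
  · by_cases hb : (2 : ℤ) ∣ b
    · exfalso
      apply hN
      rw [h]
      exact dvd_add (Dvd.dvd.mul_left (dvd_pow ha (by norm_num)) u)
        (Dvd.dvd.mul_left (dvd_pow hb (by norm_num)) v)
    · exact Or.inl ⟨ha, hb⟩
  · by_cases hb : (2 : ℤ) ∣ b
    · exact Or.inr ⟨ha, hb⟩
    · exfalso
      have h1 : ¬ (2 : ℤ) ∣ u * a ^ 4 := fun h' =>
        (Int.prime_two.dvd_or_dvd h').elim hu (deven_two_dvd_pow a 4 ha)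
      have h2 : ¬ (2 : ℤ) ∣ v * b ^ 4 := fun h' =>
        (Int.prime_two.dvd_or_dvd h').elim hv (deven_two_dvd_pow b 4 hb)
      omega

theorem deven_case1 (M a b e : ℤ) (hM : M ≠ 0) (ha : 0 < a) (hb : 0 < b)
    (hcop : IsCoprime a b)
    (hpar : ((2 : ℤ) ∣ a ∧ ¬ (2 : ℤ) ∣ b) ∨ (¬ (2 : ℤ) ∣ a ∧ (2 : ℤ) ∣ b))
    (hM2 : M ^ 2 = a ^ 4 + 14 * a ^ 2 * b ^ 2 - 15 * b ^ 4) (he : e = 2 * (a * b))
    (IH : ∀ w n : ℚ, (w.den : ℤ) < e → n ^ 2 = w ^ 4 - 7 * w ^ 2 + 16 → w = 0 ∨ w ^ 2 = 4) :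
    False := by
  obtain ⟨P, hP⟩ : ∃ P : ℤ, P = a ^ 2 - b ^ 2 := ⟨_, rfl⟩
  obtain ⟨Q, hQ⟩ : ∃ Q : ℤ, Q = a ^ 2 + 15 * b ^ 2 := ⟨_, rfl⟩
  have hPQ : P * Q = M ^ 2 := by rw [hM2, hP, hQ]; ring
  have hQpos : 0 < Q := by rw [hQ]; positivity
  have hM2pos : 0 < M ^ 2 := by positivity
  have hPpos : 0 < P := by
    by_contra hcon
    rw [not_lt] at hcon
    have : P * Q ≤ 0 := mul_nonpos_of_nonpos_of_nonneg hcon hQpos.le
    linarith
  have hba : b < a := by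
    rw [hP] at hPpos
    nlinarith
  -- `P` is odd
  have hPodd : ¬ (2 : ℤ) ∣ P := by
    intro h2P
    rw [hP] at h2P
    rcases hpar with ⟨h2a, h2b⟩ | ⟨h2a, h2b⟩
    · have h1 : (2 : ℤ) ∣ a ^ 2 := dvd_pow h2a (by norm_num)
      have h2 : (2 : ℤ) ∣ b ^ 2 := by omega
      exact h2b (Int.prime_two.dvd_of_dvd_pow h2)
    · have h1 : (2 : ℤ) ∣ b ^ 2 := dvd_pow h2b (by norm_num)
      have h2 : (2 : ℤ) ∣ a ^ 2 := by omega
      exact h2a (Int.prime_two.dvd_of_dvd_pow h2)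
  have h16 : IsCoprime P 16 := by
    have h2 : IsCoprime P 2 := ((Int.prime_two.coprime_iff_not_dvd).mpr hPodd).symm
    have h := h2.pow_right (n := 4)
    norm_num at h
    exact h
  have hcopPQ : IsCoprime P Q := by
    have hsq : IsCoprime (a ^ 2) (b ^ 2) := hcop.pow
    obtain ⟨x, y, hxy⟩ := hsq
    have h16' : (16 : ℤ) = (x + y) * Q + P * (15 * x - y) := by
      rw [hP, hQ]; linear_combination (-16) * hxy
    rw [h16'] at h16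
    exact IsCoprime.of_mul_right_right (IsCoprime.of_add_mul_left_right h16)
  obtain ⟨r0, hr0⟩ := Int.sq_of_isCoprime hcopPQ hPQ
  have hr0' : P = r0 ^ 2 := by
    rcases hr0 with h | h
    · exact h
    · exfalso; nlinarith [sq_nonneg r0]
  obtain ⟨s0, hs0⟩ := Int.sq_of_isCoprime hcopPQ.symm (by rw [mul_comm]; exact hPQ)
  have hs0' : Q = s0 ^ 2 := by
    rcases hs0 with h | h
    · exact h
    · exfalso; nlinarith [sq_nonneg s0]
  obtain ⟨r, hrpos, hr2⟩ : ∃ r : ℤ, 0 < r ∧ r ^ 2 = a ^ 2 - b ^ 2 := by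
    refine ⟨|r0|, abs_pos.mpr ?_, by rw [sq_abs, ← hr0', hP]⟩
    rintro rfl
    norm_num at hr0'
    omega
  obtain ⟨s, hspos, hs2⟩ : ∃ s : ℤ, 0 < s ∧ s ^ 2 = a ^ 2 + 15 * b ^ 2 := by
    refine ⟨|s0|, abs_pos.mpr ?_, by rw [sq_abs, ← hs0', hQ]⟩
    rintro rfl
    norm_num at hs0'
    omega
  -- the rational point
  have hbQ : (b : ℚ) ≠ 0 := by exact_mod_cast hb.ne'
  have hrQ : (0 : ℚ) < r := by exact_mod_cast hrpos
  have hsQ : (0 : ℚ) < s := by exact_mod_cast hspos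
  have hsrQ : ((s : ℚ) + r) ≠ 0 := by positivity
  have hr2Q : (r : ℚ) ^ 2 = a ^ 2 - b ^ 2 := by exact_mod_cast hr2
  have hs2Q : (s : ℚ) ^ 2 = a ^ 2 + 15 * b ^ 2 := by exact_mod_cast hs2
  obtain ⟨w, hw⟩ : ∃ w : ℚ, w = ((s + r : ℤ) : ℚ) / ((2 * b : ℤ) : ℚ) := ⟨_, rfl⟩
  have hden : (w.den : ℤ) < e := by
    have h1 : (w.den : ℤ) ∣ 2 * b := by
      have := Rat.den_dvd (s + r) (2 * b)
      rwa [Rat.divInt_eq_div, ← hw] at this
    have h2 : (w.den : ℤ) ≤ 2 * b := Int.le_of_dvd (by linarith) h1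
    have h3 : 2 * b < e := by rw [he]; nlinarith
    linarith
  have hw' : w = ((s : ℚ) + r) / (2 * b) := by rw [hw]; push_cast; ring
  have key : 4 * ((s : ℚ) + r) ^ 2 * a ^ 2
      = (s + r) ^ 4 - 28 * (s + r) ^ 2 * b ^ 2 + 256 * b ^ 4 := by
    linear_combination (-2 * ((s : ℚ) + r) ^ 2 - 16 * b ^ 2 - s ^ 2 + r ^ 2) * hr2Q
      + (-2 * ((s : ℚ) + r) ^ 2 + 16 * b ^ 2 + s ^ 2 - r ^ 2) * hs2Q
  have hid : (w * a / b) ^ 2 = w ^ 4 - 7 * w ^ 2 + 16 := by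
    rw [hw']
    field_simp
    linear_combination key
  rcases IH w (w * a / b) hden hid with h0 | h4
  · rw [hw'] at h0
    rcases div_eq_zero_iff.mp h0 with h | h
    · exact hsrQ h
    · apply hbQ; linarith
  · rw [hw'] at h4
    have h4' : ((s : ℚ) + r) ^ 2 = 16 * b ^ 2 := by
      field_simp at h4
      linarith
    have h5 : (2 : ℚ) * r * (s + r) = 0 := by linear_combination h4' - hs2Q + hr2Q
    have h6 : (0 : ℚ) < 2 * r * (s + r) := by positivity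
    linarith

theorem deven_main (M e N : ℤ) (he : 0 < e) (heven : (2 : ℤ) ∣ e) (hM : M ≠ 0)
    (hcop : IsCoprime M e)
    (hN : N ^ 2 = M ^ 4 - 7 * M ^ 2 * e ^ 2 + 16 * e ^ 4)
    (IH : ∀ w n : ℚ, (w.den : ℤ) < e → n ^ 2 = w ^ 4 - 7 * w ^ 2 + 16 → w = 0 ∨ w ^ 2 = 4) :
    False := by
  wlog hN0 : 0 ≤ N generalizing N
  · exact this (-N) (by rw [neg_sq]; exact hN) (by linarith)
  obtain ⟨e1, rfl⟩ := heven
  have he1 : 0 < e1 := by linarith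
  have hM2 : IsCoprime M 2 := IsCoprime.of_mul_right_left hcop
  have hMe1 : IsCoprime M e1 := IsCoprime.of_mul_right_right hcop
  have hModd : ¬ (2 : ℤ) ∣ M := (Int.prime_two.coprime_iff_not_dvd).mp hM2.symm
  have hNodd : ¬ (2 : ℤ) ∣ N := by
    rintro ⟨n, rfl⟩
    have h4 : (2 : ℤ) ∣ M ^ 4 :=
      ⟨2 * n ^ 2 + 14 * M ^ 2 * e1 ^ 2 - 128 * e1 ^ 4, by linear_combination (-1) * hN⟩
    exact hModd (Int.prime_two.dvd_of_dvd_pow h4)
  obtain ⟨m, hm⟩ : ∃ m, M = 2 * m + 1 := ⟨M / 2, by omega⟩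
  obtain ⟨n, hn⟩ : ∃ n, N = 2 * n + 1 := ⟨N / 2, by omega⟩
  obtain ⟨U2, V2, hsum, hdiff⟩ :
      ∃ U2 V2 : ℤ, U2 + V2 = N ∧ U2 - V2 = M ^ 2 - 14 * e1 ^ 2 :=
    ⟨n + 2 * m ^ 2 + 2 * m + 1 - 7 * e1 ^ 2, n - 2 * m ^ 2 - 2 * m + 7 * e1 ^ 2,
      by rw [hn]; ring, by rw [hm]; ring⟩
  have hprod : U2 * V2 = 15 * e1 ^ 4 := by
    have h4 : 4 * (U2 * V2) = 4 * (15 * e1 ^ 4) := by
      have h : 4 * (U2 * V2) = (U2 + V2) ^ 2 - (U2 - V2) ^ 2 := by ring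
      rw [h, hsum, hdiff]
      linear_combination hN
    linarith
  have hprod_pos : 0 < U2 * V2 := by rw [hprod]; positivity
  have hUV : 0 < U2 ∧ 0 < V2 := by
    rcases pos_and_pos_or_neg_and_neg_of_mul_pos hprod_pos with h | h
    · exact h
    · exfalso; linarith [h.1, h.2]
  have hcopUV : IsCoprime U2 V2 := by
    rw [Int.isCoprime_iff_gcd_eq_one]
    obtain ⟨g, hg⟩ : ∃ g : ℕ, g = Int.gcd U2 V2 := ⟨_, rfl⟩
    rw [← hg]
    have hgU : (g : ℤ) ∣ U2 := by rw [hg]; exact Int.gcd_dvd_left ..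
    have hgV : (g : ℤ) ∣ V2 := by rw [hg]; exact Int.gcd_dvd_right ..
    have hgd : (g : ℤ) ∣ M ^ 2 - 14 * e1 ^ 2 := by rw [← hdiff]; exact dvd_sub hgU hgV
    obtain ⟨k, hk⟩ := hgd
    have hge1 : IsCoprime (g : ℤ) e1 := by
      have h1 : IsCoprime (M ^ 2) e1 := hMe1.pow_left
      have h2 : M ^ 2 = g * k + e1 * (14 * e1) := by linear_combination hk
      rw [h2] at h1
      exact IsCoprime.of_mul_left_left (IsCoprime.of_add_mul_left_left h1)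
    have hg2 : (g : ℤ) ^ 2 ∣ 15 := by
      have h1 : IsCoprime ((g : ℤ) ^ 2) (e1 ^ 4) := hge1.pow
      have h2 : (g : ℤ) ^ 2 ∣ 15 * e1 ^ 4 := by
        rw [← hprod, sq]; exact mul_dvd_mul hgU hgV
      exact h1.dvd_of_dvd_mul_right h2
    have hg2' : g ^ 2 ∣ 15 := by exact_mod_cast hg2
    have hgle : g ≤ 3 := by
      have := Nat.le_of_dvd (by norm_num) hg2'
      nlinarith
    clear hg hgU hgV hk hge1 hg2
    interval_cases g
    · norm_num at hg2'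
    · rfl
    · norm_num at hg2'
    · norm_num at hg2'
  obtain ⟨a, b, ha, hb, hab, hcases⟩ := deven_split U2 V2 e1 hUV.1 hUV.2 he1 hcopUV hprod
  have hMsq : M ^ 2 = U2 - V2 + 14 * (a * b) ^ 2 := by rw [hab]; linarith
  rcases hcases with ⟨hU, hV⟩ | ⟨hU, hV⟩ | ⟨hU, hV⟩ | ⟨hU, hV⟩
  · -- (1, 15): descent
    have hpar := deven_parity N a b 1 15 hNodd (by norm_num) (by norm_num)
      (by rw [← hsum, hU, hV]; ring)
    have hcopab : IsCoprime a b := by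
      rw [hU, hV] at hcopUV
      exact IsCoprime.of_isCoprime_of_dvd_left
        (IsCoprime.of_isCoprime_of_dvd_right hcopUV
          (Dvd.dvd.mul_left (dvd_pow_self b (by norm_num)) 15))
        (dvd_pow_self a (by norm_num))
    exact deven_case1 M a b (2 * e1) hM ha hb hcopab hpar (by rw [hMsq, hU, hV]; ring)
      (by rw [hab]) IH
  · -- (15, 1)
    have hpar := deven_parity N a b 15 1 hNodd (by norm_num) (by norm_num)
      (by rw [← hsum, hU, hV]; ring)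
    have h : M ^ 2 = 15 * a ^ 4 + 14 * a ^ 2 * b ^ 2 - 1 * b ^ 4 := by
      rw [hMsq, hU, hV]; ring
    rcases hpar with ⟨h2a, h2b⟩ | ⟨h2a, h2b⟩
    · have := deven_mod8_a M a b 15 1 hModd h2a h2b h
      omega
    · have := deven_mod8_b M a b 15 1 hModd h2a h2b h
      omega
  · -- (3, 5)
    have hpar := deven_parity N a b 3 5 hNodd (by norm_num) (by norm_num)
      (by rw [← hsum, hU, hV])
    have h : M ^ 2 = 3 * a ^ 4 + 14 * a ^ 2 * b ^ 2 - 5 * b ^ 4 := by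
      rw [hMsq, hU, hV]; ring
    rcases hpar with ⟨h2a, h2b⟩ | ⟨h2a, h2b⟩
    · have := deven_mod8_a M a b 3 5 hModd h2a h2b h
      omega
    · have := deven_mod8_b M a b 3 5 hModd h2a h2b h
      omega
  · -- (5, 3)
    have hpar := deven_parity N a b 5 3 hNodd (by norm_num) (by norm_num)
      (by rw [← hsum, hU, hV])
    have h : M ^ 2 = 5 * a ^ 4 + 14 * a ^ 2 * b ^ 2 - 3 * b ^ 4 := by
      rw [hMsq, hU, hV]; ring
    rcases hpar with ⟨h2a, h2b⟩ | ⟨h2a, h2b⟩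
    · have := deven_mod8_a M a b 5 3 hModd h2a h2b h
      omega
    · have := deven_mod8_b M a b 5 3 hModd h2a h2b h
      omega

end Fermat.Agent.S51
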