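import Mathlib

namespace Fermat.Agent.S51

/-- An odd integer has square `≡ 1 (mod 8)`. -/
theorem dodd_sq_odd (a : ℤ) (ha : ¬ (2 : ℤ) ∣ a) : ∃ s : ℤ, a ^ 2 = 8 * s + 1 := by
  obtain ⟨k, rfl⟩ : Odd a := by
    rw [← Int.not_even_iff_odd, even_iff_two_dvd]; exact ha
  obtain ⟨r, hr⟩ := Int.even_mul_succ_self k
  exact ⟨r, by linear_combination 4 * hr⟩

/-- A square is never `≡ 3 (mod 4)`. -/
theorem dodd_sq_ne (M K : ℤ) : M ^ 2 ≠ 4 * K + 3 := by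
  intro h
  rcases Int.even_or_odd' M with ⟨m, rfl | rfl⟩
  · have h1 : (2 * m) ^ 2 = 4 * (m * m) := by ring
    omega
  · have h1 : (2 * m + 1) ^ 2 = 4 * (m * m + m) + 1 := by ring
    omega

/-- Positive integers with equal squares are equal. -/
theorem dodd_eq_of_sq_eq (a b : ℤ) (ha : 0 < a) (hb : 0 < b) (h : a ^ 2 = b ^ 2) : a = b := by
  have h1 : (a - b) * (a + b) = 0 := by linear_combination h
  rcases mul_eq_zero.mp h1 with h2 | h2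
  · linarith
  · linarith

/-- The case `(U, V) = (15 a^4, b^4)` is impossible modulo `16`. -/
theorem dodd_case_15_1 (a b M : ℤ) (ha : ¬ (2 : ℤ) ∣ a) (hb : ¬ (2 : ℤ) ∣ b)
    (h : 4 * M ^ 2 = 15 * a ^ 4 + 14 * a ^ 2 * b ^ 2 - b ^ 4) : False := by
  obtain ⟨s, hs⟩ := dodd_sq_odd a ha
  obtain ⟨t, ht⟩ := dodd_sq_odd b hb
  have h' : 4 * M ^ 2 = 15 * (a ^ 2) ^ 2 + 14 * a ^ 2 * b ^ 2 - (b ^ 2) ^ 2 := by rw [h]; ring
  rw [hs, ht] at h'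
  exact dodd_sq_ne M (60 * s ^ 2 + 56 * s * t - 4 * t ^ 2 + 22 * s + 6 * t + 1) (by linarith)

/-- The case `(U, V) = (3 a^4, 5 b^4)` is impossible modulo `16`. -/
theorem dodd_case_3_5 (a b M : ℤ) (ha : ¬ (2 : ℤ) ∣ a) (hb : ¬ (2 : ℤ) ∣ b)
    (h : 4 * M ^ 2 = 3 * a ^ 4 + 14 * a ^ 2 * b ^ 2 - 5 * b ^ 4) : False := by
  obtain ⟨s, hs⟩ := dodd_sq_odd a ha
  obtain ⟨t, ht⟩ := dodd_sq_odd b hb
  have h' : 4 * M ^ 2 = 3 * (a ^ 2) ^ 2 + 14 * a ^ 2 * b ^ 2 - 5 * (b ^ 2) ^ 2 := by rw [h]; ring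
  rw [hs, ht] at h'
  exact dodd_sq_ne M (12 * s ^ 2 + 56 * s * t - 20 * t ^ 2 + 10 * s + 2 * t) (by linarith)

/-- A positive coprime factor of a fourth power is a fourth power of a positive integer. -/
theorem dodd_fourth_pos (u v c : ℤ) (hu : 0 < u) (hcop : IsCoprime u v) (h : u * v = c ^ 4) :
    ∃ a : ℤ, 0 < a ∧ u = a ^ 4 := by
  obtain ⟨d, hd⟩ := exists_associated_pow_of_mul_eq_pow' hcop h
  have hd4 : u = d ^ 4 := by
    rcases Int.associated_iff.mp hd with h1 | h1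
    · exact h1.symm
    · have : 0 ≤ d ^ 4 := by positivity
      linarith
  have hd0 : d ≠ 0 := by
    rintro rfl
    simp at hd4
    omega
  rcases lt_or_gt_of_ne hd0 with hneg | hpos
  · exact ⟨-d, by linarith, by rw [hd4]; ring⟩
  · exact ⟨d, hpos, hd4⟩

/-- Coprime positive integers whose product is a fourth power are fourth powers. -/
theorem dodd_fourth (u v c : ℤ) (hu : 0 < u) (hv : 0 < v) (hc : 0 < c) (hcop : IsCoprime u v)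
    (h : u * v = c ^ 4) :
    ∃ a b : ℤ, 0 < a ∧ 0 < b ∧ a * b = c ∧ IsCoprime a b ∧ u = a ^ 4 ∧ v = b ^ 4 := by
  obtain ⟨a, ha, hua⟩ := dodd_fourth_pos u v c hu hcop h
  obtain ⟨b, hb, hvb⟩ := dodd_fourth_pos v u c hv hcop.symm (by rw [mul_comm]; exact h)
  refine ⟨a, b, ha, hb, ?_, ?_, hua, hvb⟩
  · have h4 : (a * b) ^ 4 = c ^ 4 := by rw [← h, hua, hvb]; ring
    exact (pow_left_inj₀ (by positivity) hc.le (by norm_num)).mp h4
  · have : IsCoprime (a ^ 4) (b ^ 4) := by rwa [← hua, ← hvb]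
    exact (IsCoprime.pow_iff (by norm_num) (by norm_num)).mp this

/-- Auxiliary form of `dodd_split` for a fixed distribution `c1 * c2 = 15` of the factor `15`. -/
theorem dodd_split_aux (c1 c2 U' V' e : ℤ) (hc1 : 0 < c1) (hc2 : 0 < c2) (hc : c1 * c2 = 15)
    (he : 0 < e) (hU : 0 < c1 * U') (hV : 0 < c2 * V') (hcop : IsCoprime (c1 * U') (c2 * V'))
    (hUV : (c1 * U') * (c2 * V') = 15 * e ^ 4) :
    ∃ a b : ℤ, 0 < a ∧ 0 < b ∧ a * b = e ∧ IsCoprime a b ∧ U' = a ^ 4 ∧ V' = b ^ 4 := by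
  have hU' : 0 < U' := (mul_pos_iff_of_pos_left hc1).mp hU
  have hV' : 0 < V' := (mul_pos_iff_of_pos_left hc2).mp hV
  have hcop' : IsCoprime U' V' := hcop.of_mul_left_right.of_mul_right_right
  have h : U' * V' = e ^ 4 := by
    have h15 : (15 : ℤ) * (U' * V') = 15 * e ^ 4 := by rw [← hUV, ← hc]; ring
    exact mul_left_cancel₀ (by norm_num) h15
  exact dodd_fourth U' V' e hU' hV' he hcop' h

/-- Coprime positive `U`, `V` with `U * V = 15 e^4` are of the form `(u1 a^4, v1 b^4)` with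
`a * b = e` and `(u1, v1) ∈ {(1,15), (15,1), (3,5), (5,3)}`. -/
theorem dodd_split (U V e : ℤ) (he : 0 < e) (hU : 0 < U) (hV : 0 < V) (hcop : IsCoprime U V)
    (hUV : U * V = 15 * e ^ 4) :
    ∃ a b : ℤ, 0 < a ∧ 0 < b ∧ a * b = e ∧ IsCoprime a b ∧
      ((U = a ^ 4 ∧ V = 15 * b ^ 4) ∨ (U = 15 * a ^ 4 ∧ V = b ^ 4) ∨
       (U = 3 * a ^ 4 ∧ V = 5 * b ^ 4) ∨ (U = 5 * a ^ 4 ∧ V = 3 * b ^ 4)) := by
  have h3 : (3 : ℤ) ∣ U * V := ⟨5 * e ^ 4, by rw [hUV]; ring⟩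
  have h5 : (5 : ℤ) ∣ U * V := ⟨3 * e ^ 4, by rw [hUV]; ring⟩
  have p3 : Prime (3 : ℤ) := Int.prime_three
  have p5 : Prime (5 : ℤ) := by norm_num
  have c35 : IsCoprime (3 : ℤ) 5 := ⟨2, -1, by norm_num⟩
  rcases p3.dvd_or_dvd h3 with h3U | h3V
  · rcases p5.dvd_or_dvd h5 with h5U | h5V
    · obtain ⟨U', rfl⟩ : (15 : ℤ) ∣ U := c35.mul_dvd h3U h5U
      obtain ⟨a, b, ha, hb, hab, hc, h1, h2⟩ :=
        dodd_split_aux 15 1 U' V e (by norm_num) (by norm_num) (by norm_num) he hU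
          (by simpa using hV) (by simpa using hcop) (by simpa using hUV)
      exact ⟨a, b, ha, hb, hab, hc, Or.inr (Or.inl ⟨by rw [h1], h2⟩)⟩
    · obtain ⟨U', rfl⟩ := h3U
      obtain ⟨V', rfl⟩ := h5V
      obtain ⟨a, b, ha, hb, hab, hc, h1, h2⟩ :=
        dodd_split_aux 3 5 U' V' e (by norm_num) (by norm_num) (by norm_num) he hU hV hcop hUV
      exact ⟨a, b, ha, hb, hab, hc, Or.inr (Or.inr (Or.inl ⟨by rw [h1], by rw [h2]⟩))⟩
  · rcases p5.dvd_or_dvd h5 with h5U | h5V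
    · obtain ⟨U', rfl⟩ := h5U
      obtain ⟨V', rfl⟩ := h3V
      obtain ⟨a, b, ha, hb, hab, hc, h1, h2⟩ :=
        dodd_split_aux 5 3 U' V' e (by norm_num) (by norm_num) (by norm_num) he hU hV hcop hUV
      exact ⟨a, b, ha, hb, hab, hc, Or.inr (Or.inr (Or.inr ⟨by rw [h1], by rw [h2]⟩))⟩
    · obtain ⟨V', rfl⟩ : (15 : ℤ) ∣ V := c35.mul_dvd h3V h5V
      obtain ⟨a, b, ha, hb, hab, hc, h1, h2⟩ :=
        dodd_split_aux 1 15 U V' e (by norm_num) (by norm_num) (by norm_num) he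
          (by simpa using hU) hV (by simpa using hcop) (by simpa using hUV)
      exact ⟨a, b, ha, hb, hab, hc, Or.inl ⟨h1, by rw [h2]⟩⟩

/-- `U = 2N + (2M^2 - 7e^2)` and `V = 2N - (2M^2 - 7e^2)` are coprime when `e` is odd and
`M`, `e` are coprime. -/
theorem dodd_coprime (M e N U V : ℤ) (hodd : ¬ (2 : ℤ) ∣ e) (hcop : IsCoprime M e)
    (hU : U = 2 * N + (2 * M ^ 2 - 7 * e ^ 2)) (hV : V = 2 * N - (2 * M ^ 2 - 7 * e ^ 2))
    (hUpos : 0 < U) (hUV : U * V = 15 * e ^ 4) : IsCoprime U V := by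
  apply isCoprime_of_prime_dvd
  · rintro ⟨h0, -⟩
    omega
  · intro p hp hpU hpV
    have hp2 : ¬ p ∣ 2 := by
      intro h2
      have h2p : (2 : ℤ) ∣ p := hp.irreducible.dvd_symm Int.prime_two.irreducible h2
      have h2U : (2 : ℤ) ∣ U := h2p.trans hpU
      have h2e2 : (2 : ℤ) ∣ e ^ 2 := by
        have h3 := dvd_sub h2U (Dvd.intro (N + M ^ 2 - 4 * e ^ 2) rfl)
        rwa [show U - 2 * (N + M ^ 2 - 4 * e ^ 2) = e ^ 2 by rw [hU]; ring] at h3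
      exact hodd (Int.prime_two.dvd_of_dvd_pow h2e2)
    have hpW : p ∣ 2 * M ^ 2 - 7 * e ^ 2 := by
      have h : p ∣ 2 * (2 * M ^ 2 - 7 * e ^ 2) := by
        have h3 := dvd_sub hpU hpV
        rwa [show U - V = 2 * (2 * M ^ 2 - 7 * e ^ 2) by rw [hU, hV]; ring] at h3
      exact (hp.dvd_or_dvd h).resolve_left hp2
    have hpe : p ∣ e := by
      by_contra hpe
      have hc : IsCoprime p e := hp.coprime_iff_not_dvd.mpr hpe
      have hsq : p ^ 2 ∣ 15 * e ^ 4 := by rw [← hUV, sq]; exact mul_dvd_mul hpU hpV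
      have h15 : p ^ 2 ∣ 15 := (hc.pow (m := 2) (n := 4)).dvd_of_dvd_mul_right hsq
      have hnat : p.natAbs ^ 2 ∣ 15 := by
        have h3 := Int.natAbs_dvd_natAbs.mpr h15
        simpa [Int.natAbs_pow] using h3
      have hpn : p.natAbs.Prime := Int.prime_iff_natAbs_prime.mp hp
      have hle : p.natAbs ^ 2 ≤ 15 := Nat.le_of_dvd (by norm_num) hnat
      have h2le := hpn.two_le
      have h3le : p.natAbs ≤ 3 := by nlinarith
      interval_cases h : p.natAbs <;> omega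
    have hpM : p ∣ M := by
      have h2M : p ∣ 2 * M ^ 2 := by
        have h3 : p ∣ (2 * M ^ 2 - 7 * e ^ 2) + 7 * e ^ 2 :=
          dvd_add hpW (Dvd.dvd.mul_left (dvd_pow hpe two_ne_zero) 7)
        simpa using h3
      exact hp.dvd_of_dvd_pow ((hp.dvd_or_dvd h2M).resolve_left hp2)
    exact hp.not_isUnit (hcop.isUnit_of_dvd' hpM hpe)

/-- The descent step in the case `(U, V) = (a^4, 15 b^4)`, sub-case `a^2 - b^2 = 16 r0^2`,
`a^2 + 15 b^2 = 16 s0^2`. -/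
theorem dodd_case_1_15_descent (a b r0 s0 : ℤ) (ha : 0 < a) (hb : 0 < b) (hr0 : r0 ≠ 0)
    (h1 : a ^ 2 - b ^ 2 = 16 * r0 ^ 2) (h2 : s0 ^ 2 - r0 ^ 2 = b ^ 2)
    (IH : ∀ w n : ℚ, (w.den : ℤ) < a * b → n ^ 2 = w ^ 4 - 7 * w ^ 2 + 16 → w = 0 ∨ w ^ 2 = 4) :
    False := by
  have hne : s0 + r0 ≠ 0 := by
    intro h0
    have hb0 : b ^ 2 = 0 := by rw [← h2]; linear_combination (s0 - r0) * h0
    exact hb.ne' ((pow_eq_zero_iff two_ne_zero).mp hb0)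
  have hab : b < a := by nlinarith [sq_pos_of_ne_zero hr0]
  have hbQ : (b : ℚ) ≠ 0 := by exact_mod_cast hb.ne'
  have h1Q : (a : ℚ) ^ 2 - (b : ℚ) ^ 2 = 16 * (r0 : ℚ) ^ 2 := by exact_mod_cast h1
  have h2Q : (s0 : ℚ) ^ 2 - (r0 : ℚ) ^ 2 = (b : ℚ) ^ 2 := by exact_mod_cast h2
  have hw : (Rat.divInt (2 * (s0 + r0)) b : ℚ) = 2 * ((s0 : ℚ) + r0) / b := by
    rw [Rat.divInt_eq_div]; push_cast; ring
  have hden : ((Rat.divInt (2 * (s0 + r0)) b).den : ℤ) < a * b :=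
    lt_of_le_of_lt (Int.le_of_dvd hb (Rat.den_dvd _ _)) (by nlinarith)
  have hid : (Rat.divInt (2 * (s0 + r0)) b * a / b) ^ 2 =
      (Rat.divInt (2 * (s0 + r0)) b) ^ 4 - 7 * (Rat.divInt (2 * (s0 + r0)) b) ^ 2 + 16 := by
    rw [hw]
    field_simp
    linear_combination (4 * ((s0 : ℚ) + r0) ^ 2) * h1Q
      + (16 * ((b : ℚ) ^ 2 + s0 ^ 2 - r0 ^ 2) - 32 * ((s0 : ℚ) + r0) ^ 2) * h2Q
  rcases IH _ _ hden hid with h0 | h4
  · rw [hw, div_eq_zero_iff] at h0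
    rcases h0 with h0 | h0
    · apply hne
      have : ((s0 + r0 : ℤ) : ℚ) = 0 := by push_cast; linarith
      exact_mod_cast this
    · exact hbQ h0
  · rw [hw] at h4
    field_simp at h4
    have h4' : (s0 + r0) ^ 2 = b ^ 2 := by
      have : (((s0 + r0) ^ 2 : ℤ) : ℚ) = ((b ^ 2 : ℤ) : ℚ) := by push_cast; linarith
      exact_mod_cast this
    have h5 : 2 * (r0 * (s0 + r0)) = 0 := by linear_combination h4' - h2
    have h6 : r0 * (s0 + r0) = 0 := by linarith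
    rcases mul_eq_zero.mp h6 with h7 | h7
    · exact hr0 h7
    · exact hne h7

/-- The case `(U, V) = (a^4, 15 b^4)` is impossible (using the induction hypothesis). -/
theorem dodd_case_1_15 (a b M : ℤ) (ha : 0 < a) (hb : 0 < b) (ha2 : ¬ (2 : ℤ) ∣ a)
    (hb2 : ¬ (2 : ℤ) ∣ b) (hcop : IsCoprime a b) (hM : M ≠ 0)
    (h : 4 * M ^ 2 = a ^ 4 + 14 * a ^ 2 * b ^ 2 - 15 * b ^ 4)
    (IH : ∀ w n : ℚ, (w.den : ℤ) < a * b → n ^ 2 = w ^ 4 - 7 * w ^ 2 + 16 → w = 0 ∨ w ^ 2 = 4) :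
    False := by
  obtain ⟨s, hs⟩ := dodd_sq_odd a ha2
  obtain ⟨t, ht⟩ := dodd_sq_odd b hb2
  have hfac : 4 * M ^ 2 = (a ^ 2 - b ^ 2) * (a ^ 2 + 15 * b ^ 2) := by rw [h]; ring
  have h1 : a ^ 2 - b ^ 2 = 8 * (s - t) := by rw [hs, ht]; ring
  have h2 : a ^ 2 + 15 * b ^ 2 = 8 * (s - t + 2 * b ^ 2) := by linear_combination h1
  have hM2 : M ^ 2 = 16 * ((s - t) * (s - t + 2 * b ^ 2)) := by
    rw [h1, h2] at hfac
    linarith
  rcases Int.even_or_odd' (s - t) with ⟨k, hk | hk⟩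
  · -- `a^2 - b^2 = 16 k`, `a^2 + 15 b^2 = 16 (k + b^2)`
    rw [hk] at hM2 h1
    obtain ⟨M', rfl⟩ : (8 : ℤ) ∣ M := by
      have h8 : (8 : ℤ) ^ 2 ∣ M ^ 2 := ⟨k * (k + b ^ 2), by rw [hM2]; ring⟩
      exact (Int.pow_dvd_pow_iff two_ne_zero).mp h8
    have hM' : k * (k + b ^ 2) = M' ^ 2 := by linarith
    have hM'0 : M' ≠ 0 := by rintro rfl; exact hM (by norm_num)
    have hBpos : 0 < k + b ^ 2 := by nlinarith [sq_nonneg a, sq_pos_of_pos hb]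
    have hApos : 0 < k := by
      have hpos : 0 < k * (k + b ^ 2) := by rw [hM']; exact sq_pos_of_ne_zero hM'0
      exact (pos_iff_pos_of_mul_pos hpos).mpr hBpos
    have hcopAB : IsCoprime k (k + b ^ 2) := by
      obtain ⟨x, y, hxy⟩ : IsCoprime (a ^ 2) (b ^ 2) := hcop.pow
      exact ⟨15 * x - y, x + y, by linear_combination hxy - x * h1⟩
    obtain ⟨r0, hr0⟩ : ∃ r0 : ℤ, k = r0 ^ 2 := by
      obtain ⟨r0, hr0 | hr0⟩ := Int.sq_of_isCoprime hcopAB hM'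
      · exact ⟨r0, hr0⟩
      · exact absurd hApos (by rw [hr0]; nlinarith [sq_nonneg r0])
    obtain ⟨s0, hs0⟩ : ∃ s0 : ℤ, k + b ^ 2 = s0 ^ 2 := by
      obtain ⟨s0, hs0 | hs0⟩ := Int.sq_of_isCoprime hcopAB.symm (by rw [mul_comm]; exact hM')
      · exact ⟨s0, hs0⟩
      · exact absurd hBpos (by rw [hs0]; nlinarith [sq_nonneg s0])
    have hr00 : r0 ≠ 0 := by rintro rfl; simp at hr0; omega
    exact dodd_case_1_15_descent a b r0 s0 ha hb hr00 (by rw [h1, hr0]; ring)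
      (by rw [← hs0, ← hr0]; ring) IH
  · -- `s - t` odd: contradiction modulo `4`
    rw [hk, ht] at hM2
    obtain ⟨M', rfl⟩ : (4 : ℤ) ∣ M := by
      have h4 : (4 : ℤ) ^ 2 ∣ M ^ 2 :=
        ⟨(2 * k + 1) * (2 * k + 1 + 2 * (8 * t + 1)), by rw [hM2]; ring⟩
      exact (Int.pow_dvd_pow_iff two_ne_zero).mp h4
    exact dodd_sq_ne M' (k ^ 2 + 8 * k * t + 2 * k + 4 * t) (by linarith)

/-- The descent step in the case `(U, V) = (5 a^4, 3 b^4)` with `a ≠ b`, where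
`5 a^2 - b^2 = 4 r0^2` and `a^2 + 3 b^2 = 4 s0^2`. -/
theorem dodd_case_5_3_descent (a b r0 s0 : ℤ) (ha : 0 < a) (hb : 0 < b) (hne : a ≠ b)
    (h1 : 5 * a ^ 2 - b ^ 2 = 4 * r0 ^ 2) (h2 : a ^ 2 + 3 * b ^ 2 = 4 * s0 ^ 2)
    (IH : ∀ w n : ℚ, (w.den : ℤ) < a * b → n ^ 2 = w ^ 4 - 7 * w ^ 2 + 16 → w = 0 ∨ w ^ 2 = 4) :
    False := by
  have hsq : a ^ 2 ≠ b ^ 2 := fun h => hne (dodd_eq_of_sq_eq a b ha hb h)
  have hdiff : (r0 + s0) * (r0 - s0) = (a - b) * (a + b) := by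
    have h4 : 4 * ((r0 + s0) * (r0 - s0)) = 4 * ((a - b) * (a + b)) := by
      linear_combination h2 - h1
    exact mul_left_cancel₀ (by norm_num) h4
  have hP : r0 + s0 ≠ 0 := by
    intro h0
    apply hsq
    rw [h0, zero_mul] at hdiff
    linear_combination -hdiff
  have hd : a - b ≠ 0 := sub_ne_zero.mpr hne
  have hdQ : (a : ℚ) - b ≠ 0 := sub_ne_zero.mpr (by exact_mod_cast hne)
  have hsQ : (a : ℚ) + b ≠ 0 := by
    have haQ : (0 : ℚ) < a := by exact_mod_cast ha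
    have hbQ : (0 : ℚ) < b := by exact_mod_cast hb
    linarith
  have h1Q : 5 * (a : ℚ) ^ 2 - (b : ℚ) ^ 2 = 4 * (r0 : ℚ) ^ 2 := by exact_mod_cast h1
  have h2Q : (a : ℚ) ^ 2 + 3 * (b : ℚ) ^ 2 = 4 * (s0 : ℚ) ^ 2 := by exact_mod_cast h2
  have hw : (Rat.divInt (2 * (r0 + s0)) (a - b) : ℚ) = 2 * ((r0 : ℚ) + s0) / ((a : ℚ) - b) := by
    rw [Rat.divInt_eq_div]; push_cast; ring
  have hden : ((Rat.divInt (2 * (r0 + s0)) (a - b)).den : ℤ) < a * b :=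
    lt_of_le_of_lt (Int.le_of_dvd (abs_pos.mpr hd) ((dvd_abs _ _).mpr (Rat.den_dvd _ _)))
      (abs_lt.mpr ⟨by nlinarith, by nlinarith⟩)
  have hid : (Rat.divInt (2 * (r0 + s0)) (a - b) * (4 * ((r0 : ℚ) * s0 + a * b))
        / (((a : ℚ) - b) * ((a : ℚ) + b))) ^ 2 =
      (Rat.divInt (2 * (r0 + s0)) (a - b)) ^ 4 - 7 * (Rat.divInt (2 * (r0 + s0)) (a - b)) ^ 2
        + 16 := by
    rw [hw]
    field_simp
    linear_combination
      (-16*(r0:ℚ)^2*s0^2 + 4*(r0:ℚ)^2*a^2 + 8*(r0:ℚ)^2*a*b + 4*(r0:ℚ)^2*b^2 - 32*(r0:ℚ)*s0^3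
        + 16*(r0:ℚ)*s0*a^2 + 16*(r0:ℚ)*s0*b^2 - 16*(s0:ℚ)^4 + 4*(s0:ℚ)^2*a^2 - 16*(s0:ℚ)^2*a*b
        + 28*(s0:ℚ)^2*b^2 - 2*(a:ℚ)^4 + 10*(a:ℚ)^3*b + 2*(a:ℚ)^2*b^2 - 2*(a:ℚ)*b^3 - 8*(b:ℚ)^4) * h1Q
      + (-24*(r0:ℚ)*s0*a^2 + 24*(r0:ℚ)*s0*b^2 - 16*(s0:ℚ)^2*a^2 + 8*(s0:ℚ)^2*a*b + 8*(s0:ℚ)^2*b^2
        - 6*(a:ℚ)^4 - 18*(a:ℚ)^3*b + 22*(a:ℚ)^2*b^2 + 10*(a:ℚ)*b^3 - 8*(b:ℚ)^4) * h2Q
  rcases IH _ _ hden hid with h0 | h4
  · rw [hw, div_eq_zero_iff] at h0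
    rcases h0 with h0 | h0
    · apply hP
      have : ((r0 + s0 : ℤ) : ℚ) = 0 := by push_cast; linarith
      exact_mod_cast this
    · exact hdQ h0
  · rw [hw] at h4
    field_simp at h4
    have h4' : (r0 + s0) ^ 2 = (a - b) ^ 2 := by
      have : (((r0 + s0) ^ 2 : ℤ) : ℚ) = (((a - b) ^ 2 : ℤ) : ℚ) := by push_cast; linarith
      exact_mod_cast this
    rcases sq_eq_sq_iff_eq_or_eq_neg.mp h4' with h5 | h5
    · have h6 : r0 - s0 = a + b :=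
        mul_left_cancel₀ hd (by rw [h5] at hdiff; exact hdiff)
      have h7 : r0 = a := by linarith
      exact hsq (by linear_combination h1 + 4 * (r0 + a) * h7)
    · have h6 : r0 - s0 = -(a + b) :=
        mul_left_cancel₀ hd (by rw [h5] at hdiff; linear_combination -hdiff)
      have h7 : r0 = -a := by linarith
      exact hsq (by linear_combination h1 + 4 * (r0 - a) * h7)

/-- The case `(U, V) = (5 a^4, 3 b^4)`: using the induction hypothesis, `a = b = 1`. -/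
theorem dodd_case_5_3 (a b M : ℤ) (ha : 0 < a) (hb : 0 < b) (ha2 : ¬ (2 : ℤ) ∣ a)
    (hb2 : ¬ (2 : ℤ) ∣ b) (hcop : IsCoprime a b) (hM : M ≠ 0)
    (h : 4 * M ^ 2 = 5 * a ^ 4 + 14 * a ^ 2 * b ^ 2 - 3 * b ^ 4)
    (IH : ∀ w n : ℚ, (w.den : ℤ) < a * b → n ^ 2 = w ^ 4 - 7 * w ^ 2 + 16 → w = 0 ∨ w ^ 2 = 4) :
    M ^ 2 = 4 ∧ a * b = 1 := by
  have hab : a = b := by
    by_contra hne
    obtain ⟨s, hs⟩ := dodd_sq_odd a ha2
    obtain ⟨t, ht⟩ := dodd_sq_odd b hb2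
    have hfac : 4 * M ^ 2 = (5 * a ^ 2 - b ^ 2) * (a ^ 2 + 3 * b ^ 2) := by rw [h]; ring
    have hA : 5 * a ^ 2 - b ^ 2 = 4 * (2 * (5 * s - t) + 1) := by rw [hs, ht]; ring
    have hB : a ^ 2 + 3 * b ^ 2 = 4 * (2 * (s + 3 * t) + 1) := by rw [hs, ht]; ring
    obtain ⟨A, hAdef⟩ : ∃ A : ℤ, A = 2 * (5 * s - t) + 1 := ⟨_, rfl⟩
    obtain ⟨B, hBdef⟩ : ∃ B : ℤ, B = 2 * (s + 3 * t) + 1 := ⟨_, rfl⟩
    rw [← hAdef] at hA
    rw [← hBdef] at hB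
    have hM2 : M ^ 2 = 4 * (A * B) := by rw [hA, hB] at hfac; linarith
    obtain ⟨M', rfl⟩ : (2 : ℤ) ∣ M := by
      have h2 : (2 : ℤ) ^ 2 ∣ M ^ 2 := ⟨A * B, by rw [hM2]; ring⟩
      exact (Int.pow_dvd_pow_iff two_ne_zero).mp h2
    have hM' : A * B = M' ^ 2 := by linarith
    have hM'0 : M' ≠ 0 := by rintro rfl; exact hM (by norm_num)
    have hBpos : 0 < B := by nlinarith [sq_nonneg a, sq_pos_of_pos hb]
    have hApos : 0 < A := by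
      have hpos : 0 < A * B := by rw [hM']; exact sq_pos_of_ne_zero hM'0
      exact (pos_iff_pos_of_mul_pos hpos).mpr hBpos
    have hcopAB : IsCoprime A B := by
      obtain ⟨x, y, hxy⟩ : IsCoprime (a ^ 2) (b ^ 2) := hcop.pow
      have h3 : 3 * A + B = 4 * a ^ 2 := by linarith
      have h5 : 5 * B - A = 4 * b ^ 2 := by linarith
      refine ⟨A - ((5 * s - t) ^ 2 + (5 * s - t)) * (3 * x - y),
        -((5 * s - t) ^ 2 + (5 * s - t)) * (x + 5 * y), ?_⟩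
      linear_combination (-((5 * s - t) ^ 2 + (5 * s - t)) * x) * h3
        + (-((5 * s - t) ^ 2 + (5 * s - t)) * y) * h5
        + (-4 * ((5 * s - t) ^ 2 + (5 * s - t))) * hxy + (A + 2 * (5 * s - t) + 1) * hAdef
    obtain ⟨r0, hr0⟩ : ∃ r0 : ℤ, A = r0 ^ 2 := by
      obtain ⟨r0, hr0 | hr0⟩ := Int.sq_of_isCoprime hcopAB hM'
      · exact ⟨r0, hr0⟩
      · exact absurd hApos (by rw [hr0]; nlinarith [sq_nonneg r0])
    obtain ⟨s0, hs0⟩ : ∃ s0 : ℤ, B = s0 ^ 2 := by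
      obtain ⟨s0, hs0 | hs0⟩ := Int.sq_of_isCoprime hcopAB.symm (by rw [mul_comm]; exact hM')
      · exact ⟨s0, hs0⟩
      · exact absurd hBpos (by rw [hs0]; nlinarith [sq_nonneg s0])
    exact dodd_case_5_3_descent a b r0 s0 ha hb hne (by rw [hA, hr0]) (by rw [hB, hs0]) IH
  subst hab
  have ha1 : a = 1 := by
    rcases Int.isUnit_iff.mp (isCoprime_self.mp hcop) with h1 | h1
    · exact h1
    · omega
  subst ha1
  have h16 : 4 * M ^ 2 = 16 := by rw [h]; norm_num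
  exact ⟨by linarith, by norm_num⟩

/-- Induction step of the descent for `N^2 = M^4 - 7 M^2 e^2 + 16 e^4` in the case `e` odd. -/
theorem dodd_main (M e N : ℤ) (he : 0 < e) (hodd : ¬ (2 : ℤ) ∣ e) (hM : M ≠ 0)
    (hcop : IsCoprime M e)
    (hN : N ^ 2 = M ^ 4 - 7 * M ^ 2 * e ^ 2 + 16 * e ^ 4)
    (IH : ∀ w n : ℚ, (w.den : ℤ) < e → n ^ 2 = w ^ 4 - 7 * w ^ 2 + 16 → w = 0 ∨ w ^ 2 = 4) :
    M ^ 2 = 4 ∧ e = 1 := by
  have he4 : 0 < e ^ 4 := by positivity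
  obtain ⟨N', hN'pos, hN'⟩ :
      ∃ N' : ℤ, 0 < N' ∧ N' ^ 2 = M ^ 4 - 7 * M ^ 2 * e ^ 2 + 16 * e ^ 4 := by
    refine ⟨|N|, abs_pos.mpr ?_, by rw [sq_abs]; exact hN⟩
    rintro rfl
    nlinarith [sq_nonneg (2 * M ^ 2 - 7 * e ^ 2)]
  have hUV : (2 * N' + (2 * M ^ 2 - 7 * e ^ 2)) * (2 * N' - (2 * M ^ 2 - 7 * e ^ 2))
      = 15 * e ^ 4 := by
    linear_combination 4 * hN'
  have hUpos : 0 < 2 * N' + (2 * M ^ 2 - 7 * e ^ 2) := by
    by_contra hneg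
    have hle := not_lt.mp hneg
    nlinarith
  have hVpos : 0 < 2 * N' - (2 * M ^ 2 - 7 * e ^ 2) := by
    by_contra hneg
    have hle := not_lt.mp hneg
    nlinarith
  obtain ⟨a, b, ha, hb, hab, hcopab, hcases⟩ :=
    dodd_split _ _ e he hUpos hVpos (dodd_coprime M e N' _ _ hodd hcop rfl rfl hUpos hUV) hUV
  subst hab
  have ha2 : ¬ (2 : ℤ) ∣ a := fun h2 => hodd (Dvd.dvd.mul_right h2 b)
  have hb2 : ¬ (2 : ℤ) ∣ b := fun h2 => hodd (Dvd.dvd.mul_left h2 a)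
  rcases hcases with ⟨h1, h2⟩ | ⟨h1, h2⟩ | ⟨h1, h2⟩ | ⟨h1, h2⟩
  · exact (dodd_case_1_15 a b M ha hb ha2 hb2 hcopab hM (by linear_combination h1 - h2) IH).elim
  · exact (dodd_case_15_1 a b M ha2 hb2 (by linear_combination h1 - h2)).elim
  · exact (dodd_case_3_5 a b M ha2 hb2 (by linear_combination h1 - h2)).elim
  · exact dodd_case_5_3 a b M ha hb ha2 hb2 hcopab hM (by linear_combination h1 - h2) IH

end Fermat.Agent.S51
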