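import Mathlib

namespace Fermat.Agent.S51

/-- A rational number whose square is an integer is an integer. -/
theorem dio_int_of_sq_eq_int (q : ℚ) (z : ℤ) (hq : q ^ 2 = (z : ℚ)) : ∃ N : ℤ, (N : ℚ) = q := by
  have h1 : (q ^ 2).den = 1 := by rw [hq]; exact Rat.den_intCast z
  rw [Rat.den_pow] at h1
  have h2 : q.den = 1 := by
    rcases Nat.eq_zero_or_pos q.den with h0 | hpos
    · exact absurd h0 q.den_nz
    · by_contra hne
      have h3 : 2 ≤ q.den := by omega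
      have h4 : 4 ≤ q.den ^ 2 := by nlinarith
      omega
  exact ⟨q.num, Rat.coe_int_num_of_den_eq_one h2⟩

theorem dio_quartic_of_cases
    (hodd : ∀ (M e N : ℤ), 0 < e → ¬ (2 : ℤ) ∣ e → M ≠ 0 → IsCoprime M e →
        N ^ 2 = M ^ 4 - 7 * M ^ 2 * e ^ 2 + 16 * e ^ 4 →
        (∀ w n : ℚ, (w.den : ℤ) < e → n ^ 2 = w ^ 4 - 7 * w ^ 2 + 16 → w = 0 ∨ w ^ 2 = 4) →
        M ^ 2 = 4 ∧ e = 1)
    (heven : ∀ (M e N : ℤ), 0 < e → (2 : ℤ) ∣ e → M ≠ 0 → IsCoprime M e →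
        N ^ 2 = M ^ 4 - 7 * M ^ 2 * e ^ 2 + 16 * e ^ 4 →
        (∀ w n : ℚ, (w.den : ℤ) < e → n ^ 2 = w ^ 4 - 7 * w ^ 2 + 16 → w = 0 ∨ w ^ 2 = 4) →
        False)
    (w n : ℚ) (h : n ^ 2 = w ^ 4 - 7 * w ^ 2 + 16) : w = 0 ∨ w ^ 2 = 4 := by
  suffices H : ∀ d : ℕ, ∀ w n : ℚ, w.den = d → n ^ 2 = w ^ 4 - 7 * w ^ 2 + 16 →
      w = 0 ∨ w ^ 2 = 4 from H w.den w n rfl h
  intro d
  induction d using Nat.strong_induction_on with
  | _ d ih =>
    intro w n hd h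
    by_cases hM : w.num = 0
    · left
      exact Rat.zero_iff_num_zero.mpr hM
    · right
      have he : (0 : ℤ) < (w.den : ℤ) := by exact_mod_cast w.den_pos
      have hcop : IsCoprime w.num (w.den : ℤ) := by
        rw [Int.isCoprime_iff_gcd_eq_one]
        exact w.reduced
      have hw : (w.num : ℚ) / (w.den : ℚ) = w := Rat.num_div_den w
      have hne : (w.den : ℚ) ≠ 0 := by exact_mod_cast w.den_nz
      have hsq : (n * (w.den : ℚ) ^ 2) ^ 2 =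
          ((w.num ^ 4 - 7 * w.num ^ 2 * (w.den : ℤ) ^ 2 + 16 * (w.den : ℤ) ^ 4 : ℤ) : ℚ) := by
        have h' : n ^ 2 = ((w.num : ℚ) / (w.den : ℚ)) ^ 4
            - 7 * ((w.num : ℚ) / (w.den : ℚ)) ^ 2 + 16 := by
          rw [hw]; exact h
        push_cast
        rw [mul_pow, h']
        field_simp
      obtain ⟨N, hN⟩ := dio_int_of_sq_eq_int _ _ hsq
      have hN2 : N ^ 2 = w.num ^ 4 - 7 * w.num ^ 2 * (w.den : ℤ) ^ 2 + 16 * (w.den : ℤ) ^ 4 := by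
        have : ((N ^ 2 : ℤ) : ℚ) =
            ((w.num ^ 4 - 7 * w.num ^ 2 * (w.den : ℤ) ^ 2 + 16 * (w.den : ℤ) ^ 4 : ℤ) : ℚ) := by
          rw [← hsq, ← hN]; push_cast; ring
        exact_mod_cast this
      have IH : ∀ w' n' : ℚ, (w'.den : ℤ) < (w.den : ℤ) →
          n' ^ 2 = w' ^ 4 - 7 * w' ^ 2 + 16 → w' = 0 ∨ w' ^ 2 = 4 := by
        intro w' n' hlt h'
        have hlt' : w'.den < w.den := by exact_mod_cast hlt
        exact ih w'.den (by rw [← hd]; exact hlt') w' n' rfl h'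
      by_cases h2 : (2 : ℤ) ∣ (w.den : ℤ)
      · exact (heven w.num w.den N he h2 hM hcop hN2 IH).elim
      · obtain ⟨hM2, he1⟩ := hodd w.num w.den N he h2 hM hcop hN2 IH
        have he1' : (w.den : ℚ) = 1 := by exact_mod_cast he1
        have hM2' : (w.num : ℚ) ^ 2 = 4 := by exact_mod_cast hM2
        calc w ^ 2 = ((w.num : ℚ) / (w.den : ℚ)) ^ 2 := by rw [hw]
          _ = 4 := by rw [he1', div_one, hM2']

/-- Auxiliary identity for the square of the `w`-coordinate. -/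
theorem dio_rho_aux (ρ s A B : ℚ) (hA0 : A ≠ 0) (hB0 : B ≠ 0)
    (hs : s ^ 2 = ρ * (ρ + 4) * A) :
    (2 * s * (ρ - 6) / (A * B)) ^ 2 = 4 * ρ * (ρ + 4) * (ρ - 6) ^ 2 / (A * B ^ 2) := by
  rw [div_pow, div_eq_div_iff (pow_ne_zero 2 (mul_ne_zero hA0 hB0))
    (mul_ne_zero hA0 (pow_ne_zero 2 hB0))]
  linear_combination (4 * (ρ - 6) ^ 2 * A * B ^ 2) * hs

/-- Clearing denominators in the quartic relation. -/
theorem dio_div_identity (P W D : ℚ) (hD : D ≠ 0)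
    (hPWD : P ^ 2 = W ^ 2 - 7 * W * D + 16 * D ^ 2) :
    (P / D) ^ 2 = (W / D) ^ 2 - 7 * (W / D) + 16 := by
  rw [div_pow, div_pow, hPWD]
  field_simp

theorem dio_rho_h_classify
    (hA : ∀ w n : ℚ, n ^ 2 = w ^ 4 - 7 * w ^ 2 + 16 → w = 0 ∨ w ^ 2 = 4)
    (ρ h : ℚ) (hρ : ρ ≠ 0) (hh : h ≠ 0)
    (hΦ : ρ ^ 5 * (ρ + 9) + 5 * ρ ^ 3 * h + (ρ - 1) * h ^ 2 = 0) :
    h = -2 ∨ h = -32 ∨ h = -729 / 2 ∨ h = -729 / 32 := by
  obtain ⟨s, hs⟩ : ∃ s : ℚ, s ^ 2 = ρ * (ρ + 4) * (9 - 4 * ρ) := by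
    refine ⟨(2 * ρ ^ 3 * (ρ + 9) + 5 * ρ * h) / h, ?_⟩
    rw [div_pow, div_eq_iff (pow_ne_zero 2 hh)]
    linear_combination (4 * ρ * (ρ + 9)) * hΦ
  by_cases h1 : 9 - 4 * ρ = 0
  · have hρ' : ρ = 9 / 4 := by linarith
    rw [hρ'] at hΦ
    right; right; right
    have h3 : (h + 729 / 32) ^ 2 = 0 := by linear_combination (4 / 5) * hΦ
    have h4 : h + 729 / 32 = 0 := by simpa using h3
    linarith
  by_cases h2 : 2 * ρ + 3 = 0
  · exfalso
    have hρ' : ρ = -3 / 2 := by linarith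
    rw [hρ'] at hs
    nlinarith [sq_nonneg s]
  have hD : (9 - 4 * ρ) * (2 * ρ + 3) ^ 2 ≠ 0 := mul_ne_zero h1 (pow_ne_zero 2 h2)
  have hw2 : (2 * s * (ρ - 6) / ((9 - 4 * ρ) * (2 * ρ + 3))) ^ 2 =
      4 * ρ * (ρ + 4) * (ρ - 6) ^ 2 / ((9 - 4 * ρ) * (2 * ρ + 3) ^ 2) :=
    dio_rho_aux ρ s (9 - 4 * ρ) (2 * ρ + 3) h1 h2 hs
  have key := hA (2 * s * (ρ - 6) / ((9 - 4 * ρ) * (2 * ρ + 3)))
    ((4 * ρ ^ 4 + 24 * ρ ^ 3 + 114 * ρ ^ 2 - 216 * ρ + 324) / ((9 - 4 * ρ) * (2 * ρ + 3) ^ 2))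
    (by
      have e4 : (2 * s * (ρ - 6) / ((9 - 4 * ρ) * (2 * ρ + 3))) ^ 4 =
          ((2 * s * (ρ - 6) / ((9 - 4 * ρ) * (2 * ρ + 3))) ^ 2) ^ 2 := by ring
      rw [e4, hw2]
      exact dio_div_identity _ _ _ hD (by ring))
  rcases key with hw0 | hw4
  · -- w = 0
    have hden : (9 - 4 * ρ) * (2 * ρ + 3) ≠ 0 := mul_ne_zero h1 h2
    rw [div_eq_zero_iff] at hw0
    rcases hw0 with hnum | hden0
    · rcases mul_eq_zero.mp hnum with h2s | h6
      · have hs0 : s = 0 := by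
          rcases mul_eq_zero.mp h2s with h20 | hs0
          · norm_num at h20
          · exact hs0
        rw [hs0] at hs
        have h5 : ρ * (ρ + 4) * (9 - 4 * ρ) = 0 := by rw [← hs]; ring
        have h6 : ρ + 4 = 0 := by
          rcases mul_eq_zero.mp h5 with h7 | h7
          · rcases mul_eq_zero.mp h7 with h8 | h8
            · exact absurd h8 hρ
            · exact h8
          · exact absurd h7 h1
        have hρ' : ρ = -4 := by linarith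
        rw [hρ'] at hΦ
        right; left
        have h3 : (h + 32) ^ 2 = 0 := by linear_combination (-1 / 5) * hΦ
        have h4 : h + 32 = 0 := by simpa using h3
        linarith
      · exfalso
        have hρ' : ρ = 6 := by linarith
        rw [hρ'] at hs
        nlinarith [sq_nonneg s]
    · exact absurd hden0 hden
  · -- w ^ 2 = 4
    rw [hw2, div_eq_iff hD] at hw4
    have h5 : (ρ - 1) * (ρ + 9) * (ρ ^ 2 + 9) = 0 := by linear_combination (1 / 4) * hw4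
    have h9 : ρ ^ 2 + 9 ≠ 0 := by positivity
    rcases mul_eq_zero.mp h5 with h7 | h7
    · rcases mul_eq_zero.mp h7 with h8 | h8
      · have hρ' : ρ = 1 := by linarith
        rw [hρ'] at hΦ
        left
        linarith
      · have hρ' : ρ = -9 := by linarith
        rw [hρ'] at hΦ
        right; right; left
        have h10 : h * (2 * h + 729) = 0 := by linear_combination (-1 / 5) * hΦ
        rcases mul_eq_zero.mp h10 with h11 | h11
        · exact absurd h11 hh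
        · linarith
    · exact absurd h7 h9

/-- If `a * c4 ^ 3 = 5 * b * Δ` with `5 ∤ a` and `25 ∤ b`, then `5 ∣ c4` and `5 ∣ Δ`. -/
theorem dio_endgame_aux (c4 Δ a b : ℤ) (ha : ¬ (5 : ℤ) ∣ a) (hb : ¬ (25 : ℤ) ∣ b)
    (h5 : (5 : ℤ) ∣ Δ → ¬ (5 : ℤ) ∣ c4)
    (hab : a * c4 ^ 3 = 5 * b * Δ) : False := by
  have hp : Prime (5 : ℤ) := Int.prime_iff_natAbs_prime.mpr (by norm_num)
  have h1 : (5 : ℤ) ∣ a * c4 ^ 3 := ⟨b * Δ, by rw [hab]; ring⟩
  have hc : (5 : ℤ) ∣ c4 := by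
    rcases hp.dvd_or_dvd h1 with h2 | h2
    · exact absurd h2 ha
    · exact hp.dvd_of_dvd_pow h2
  have hnd : ¬ (5 : ℤ) ∣ Δ := fun hd => h5 hd hc
  obtain ⟨k, rfl⟩ := hc
  have h25 : (25 : ℤ) ∣ b * Δ := ⟨a * k ^ 3, by linarith⟩
  have hcop5 : IsCoprime (5 : ℤ) Δ := (Prime.coprime_iff_not_dvd hp).mpr hnd
  have hcop : IsCoprime (25 : ℤ) Δ := by
    have h := hcop5.pow_left (m := 2)
    norm_num at h
    exact h
  exact hb (hcop.dvd_of_dvd_mul_right h25)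

theorem dio_endgame (c4 Δ : ℤ) (h : ℚ) (hΔ : Δ ≠ 0)
    (h5 : (5 : ℤ) ∣ Δ → ¬ (5 : ℤ) ∣ c4)
    (hj : (c4 : ℚ) ^ 3 * h = (Δ : ℚ) * (h + 27) * (h + 3) ^ 3)
    (hh : h = -2 ∨ h = -32 ∨ h = -729 / 2 ∨ h = -729 / 32) : False := by
  have _ := hΔ
  rcases hh with rfl | rfl | rfl | rfl
  · have e : (-2 : ℤ) * c4 ^ 3 = 5 * 5 * Δ := by
      have : (((-2 : ℤ) * c4 ^ 3 : ℤ) : ℚ) = ((5 * 5 * Δ : ℤ) : ℚ) := by
        push_cast; linear_combination hj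
      exact_mod_cast this
    exact dio_endgame_aux c4 Δ (-2) 5 (by norm_num) (by norm_num) h5 e
  · have e : (-32 : ℤ) * c4 ^ 3 = 5 * 24389 * Δ := by
      have : (((-32 : ℤ) * c4 ^ 3 : ℤ) : ℚ) = ((5 * 24389 * Δ : ℤ) : ℚ) := by
        push_cast; linear_combination hj
      exact_mod_cast this
    exact dio_endgame_aux c4 Δ (-32) 24389 (by norm_num) (by norm_num) h5 e
  · have e : (-8 : ℤ) * c4 ^ 3 = 5 * 69987605 * Δ := by
      have : (((-8 : ℤ) * c4 ^ 3 : ℤ) : ℚ) = ((5 * 69987605 * Δ : ℤ) : ℚ) := by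
        push_cast; linear_combination (16 / 729 : ℚ) * hj
      exact_mod_cast this
    exact dio_endgame_aux c4 Δ (-8) 69987605 (by norm_num) (by norm_num) h5 e
  · have e : (32768 : ℤ) * c4 ^ 3 = 5 * 9393931 * Δ := by
      have : (((32768 : ℤ) * c4 ^ 3 : ℤ) : ℚ) = ((5 * 9393931 * Δ : ℤ) : ℚ) := by
        push_cast; linear_combination (-1048576 / 729 : ℚ) * hj
      exact_mod_cast this
    exact dio_endgame_aux c4 Δ 32768 9393931 (by norm_num) (by norm_num) h5 e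

end Fermat.Agent.S51
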