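import Mathlib

namespace Fermat.Agent.S51

/-! ### Identities for the cubic `f(x) = 4x^3 + b2 x^2 + 2 b4 x + b6` via Taylor coefficients -/

/-- (T1) The relation `φ(c) = y * f(c)` in terms of the Taylor coefficients of `f` at `c`. -/
theorem alg_T1 {K : Type*} [CommRing K] (b2 b4 b6 b8 c y : K)
    (hb : 4 * b8 = b2 * b6 - b4 ^ 2)
    (h : c ^ 4 - b4 * c ^ 2 - 2 * b6 * c - b8 = y * (4 * c ^ 3 + b2 * c ^ 2 + 2 * b4 * c + b6)) :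
    16 * (4 * c ^ 3 + b2 * c ^ 2 + 2 * b4 * c + b6) * (y - c)
      = (12 * c ^ 2 + 2 * b2 * c + 2 * b4) ^ 2
        - 4 * (4 * c ^ 3 + b2 * c ^ 2 + 2 * b4 * c + b6) * (12 * c + b2) := by
  linear_combination (-16 : K) * h - 4 * hb

/-- (T3) The discriminant in terms of the Taylor coefficients of `f` at `c`. -/
theorem alg_T3 {K : Type*} [CommRing K] (b2 b4 b6 b8 c Δ : K)
    (hb : 4 * b8 = b2 * b6 - b4 ^ 2)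
    (hΔ : Δ = -b2 ^ 2 * b8 - 8 * b4 ^ 3 - 27 * b6 ^ 2 + 9 * b2 * b4 * b6) :
    16 * Δ = (12 * c ^ 2 + 2 * b2 * c + 2 * b4) ^ 2 * (12 * c + b2) ^ 2
      - 16 * (12 * c ^ 2 + 2 * b2 * c + 2 * b4) ^ 3
      - 4 * (12 * c + b2) ^ 3 * (4 * c ^ 3 + b2 * c ^ 2 + 2 * b4 * c + b6)
      + 72 * (12 * c + b2) * (12 * c ^ 2 + 2 * b2 * c + 2 * b4)
          * (4 * c ^ 3 + b2 * c ^ 2 + 2 * b4 * c + b6)
      - 432 * (4 * c ^ 3 + b2 * c ^ 2 + 2 * b4 * c + b6) ^ 2 := by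
  linear_combination (16 : K) * hΔ - 4 * b2 ^ 2 * hb

/-! ### The 3-torsion statement -/

theorem alg_three_core {K : Type*} [CommRing K] (F F1 F2 : K) (hR : F1 ^ 2 = 4 * F * F2) :
    16 * F ^ 2 * (F2 ^ 2 - 12 * F1) ^ 3 = F1 * F2 * (F1 * F2 - 48 * F) ^ 3 := by
  linear_combination
    (-F1 ^ 2 * F2 ^ 4 - 27648 * F1 * F ^ 2 + 144 * F1 * F * F2 ^ 3 - 4 * F * F2 ^ 5) * hR

theorem alg_three_aux {K : Type*} [Field K] [CharZero K] (F F1 F2 c4 Δ h : K)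
    (hF : F ≠ 0) (hR : F1 ^ 2 = 4 * F * F2)
    (hc4 : c4 = F2 ^ 2 - 12 * F1)
    (hΔ : 16 * Δ = F1 ^ 2 * F2 ^ 2 - 16 * F1 ^ 3 - 4 * F2 ^ 3 * F + 72 * F2 * F1 * F
      - 432 * F ^ 2)
    (hh : h = Δ / F ^ 2) :
    c4 ^ 3 * h = Δ * (h + 27) * (h + 3) ^ 3 := by
  have hΔ' : Δ = F * (F1 * F2 - 54 * F) / 2 := by
    field_simp
    linear_combination (1 / 8 : K) * hΔ + (1 / 8 : K) * (F2 ^ 2 - 16 * F1) * hR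
  have h1 : h = (F1 * F2 - 54 * F) / (2 * F) := by
    rw [hh, hΔ']; field_simp
  have h27 : h + 27 = F1 * F2 / (2 * F) := by rw [h1]; field_simp; ring
  have h3 : h + 3 = (F1 * F2 - 48 * F) / (2 * F) := by rw [h1]; field_simp; ring
  have core := alg_three_core F F1 F2 hR
  rw [h27, h3, h1, hΔ', hc4]
  field_simp
  linear_combination (F1 * F2 - 54 * F) * core

theorem alg_three {K : Type*} [Field K] [CharZero K] (b2 b4 b6 b8 x0 Δ h : K)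
    (hb : 4 * b8 = b2 * b6 - b4 ^ 2)
    (hΔ : Δ = -b2 ^ 2 * b8 - 8 * b4 ^ 3 - 27 * b6 ^ 2 + 9 * b2 * b4 * b6)
    (hf0 : 4 * x0 ^ 3 + b2 * x0 ^ 2 + 2 * b4 * x0 + b6 ≠ 0)
    (h3 : x0 ^ 4 - b4 * x0 ^ 2 - 2 * b6 * x0 - b8
        = x0 * (4 * x0 ^ 3 + b2 * x0 ^ 2 + 2 * b4 * x0 + b6))
    (hh : h = Δ / (4 * x0 ^ 3 + b2 * x0 ^ 2 + 2 * b4 * x0 + b6) ^ 2) :
    (b2 ^ 2 - 24 * b4) ^ 3 * h = Δ * (h + 27) * (h + 3) ^ 3 := by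
  refine alg_three_aux (4 * x0 ^ 3 + b2 * x0 ^ 2 + 2 * b4 * x0 + b6)
    (12 * x0 ^ 2 + 2 * b2 * x0 + 2 * b4) (12 * x0 + b2) _ Δ h hf0 ?_ ?_ ?_ hh
  · have := alg_T1 b2 b4 b6 b8 x0 x0 hb h3
    linear_combination -this
  · ring
  · exact alg_T3 b2 b4 b6 b8 x0 Δ hb hΔ

/-! ### The 15-torsion statement -/

/-- The core polynomial identity: the equation of `X_0(15)` in Tate coordinates `(t, z)`. -/
theorem alg_fifteen_core {K : Type*} [CommRing K] (t z : K)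
    (hψ : 3 * z ^ 4 + (t ^ 2 - 6 * t + 1) * z ^ 3 + 3 * (t ^ 2 - t) * z ^ 2 + 3 * t ^ 2 * z
      - t ^ 3 = 0) :
    (t ^ 2 + 9 * (z * (z - t)))
        * (4 * z ^ 3 + (t ^ 2 - 6 * t + 1) * z ^ 2 + 2 * (t ^ 2 - t) * z + t ^ 2) ^ 4
      + 5 * t * (t ^ 2 - 11 * t - 1) * (z * (z - t)) ^ 3
        * (4 * z ^ 3 + (t ^ 2 - 6 * t + 1) * z ^ 2 + 2 * (t ^ 2 - t) * z + t ^ 2) ^ 2
      + (t ^ 2 - z * (z - t)) * (t ^ 2 - 11 * t - 1) ^ 2 * (z * (z - t)) ^ 5 = 0 := by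
  linear_combination
    (768 * z ^ 10 + 512 * z ^ 9 * t ^ 2 - 3840 * z ^ 9 * t + 512 * z ^ 9 + 117 * z ^ 8 * t ^ 4
      - 1886 * z ^ 8 * t ^ 3 + 8051 * z ^ 8 * t ^ 2 - 2722 * z ^ 8 * t + 117 * z ^ 8
      + 9 * z ^ 7 * t ^ 6 - 274 * z ^ 7 * t ^ 5 + 2664 * z ^ 7 * t ^ 4 - 9164 * z ^ 7 * t ^ 3
      + 6008 * z ^ 7 * t ^ 2 - 662 * z ^ 7 * t + 9 * z ^ 7 - 9 * z ^ 6 * t ^ 7
      + 205 * z ^ 6 * t ^ 6 - 1768 * z ^ 6 * t ^ 5 + 6117 * z ^ 6 * t ^ 4 - 7080 * z ^ 6 * t ^ 3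
      + 1563 * z ^ 6 * t ^ 2 - 54 * z ^ 6 * t + z ^ 5 * t ^ 8 - 48 * z ^ 5 * t ^ 7
      + 528 * z ^ 5 * t ^ 6 - 2405 * z ^ 5 * t ^ 5 + 4760 * z ^ 5 * t ^ 4 - 1980 * z ^ 5 * t ^ 3
      + 136 * z ^ 5 * t ^ 2 - 50 * z ^ 4 * t ^ 7 + 524 * z ^ 4 * t ^ 6 - 1802 * z ^ 4 * t ^ 5
      + 1435 * z ^ 4 * t ^ 4 - 185 * z ^ 4 * t ^ 3 - 51 * z ^ 3 * t ^ 7 + 352 * z ^ 3 * t ^ 6
      - 582 * z ^ 3 * t ^ 5 + 145 * z ^ 3 * t ^ 4 - 28 * z ^ 2 * t ^ 7 + 117 * z ^ 2 * t ^ 6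
      - 64 * z ^ 2 * t ^ 5 - 8 * z * t ^ 7 + 14 * z * t ^ 6 - t ^ 7) * hψ

/-- Clearing denominators in the modular equation. -/
theorem alg_fifteen_quot {K : Type*} [Field K] (t D g E ρ h : K) (hD : D ≠ 0) (hg : g ≠ 0)
    (hρ : ρ = t ^ 2 / D) (hh : h = t ^ 5 * E / g ^ 2)
    (hcore : (t ^ 2 + 9 * D) * g ^ 4 + 5 * t * E * D ^ 3 * g ^ 2
      + (t ^ 2 - D) * E ^ 2 * D ^ 5 = 0) :
    ρ ^ 5 * (ρ + 9) + 5 * ρ ^ 3 * h + (ρ - 1) * h ^ 2 = 0 := by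
  have key : ρ ^ 5 * (ρ + 9) + 5 * ρ ^ 3 * h + (ρ - 1) * h ^ 2
      = t ^ 10 * ((t ^ 2 + 9 * D) * g ^ 4 + 5 * t * E * D ^ 3 * g ^ 2
          + (t ^ 2 - D) * E ^ 2 * D ^ 5) / (D ^ 6 * g ^ 4) := by
    rw [hρ, hh]
    field_simp
  rw [key, hcore, mul_zero, zero_div]

/-- The statement in Tate normal form: all quantities are expressed through `μ, t, z`. -/
theorem alg_fifteen_tate {K : Type*} [Field K] [CharZero K] (μ t z d u F F1 F2 Δ G h ρ : K)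
    (hμ : μ ≠ 0) (ht : t ≠ 0) (hz : z ≠ 0) (hzt : z ≠ t)
    (e_d : d = μ * t) (e_u : u = μ * z) (e_F : F = μ ^ 3 * t ^ 2)
    (e_F1 : F1 = 2 * μ ^ 2 * t * (t - 1)) (e_F2 : F2 = μ * (t ^ 2 - 6 * t + 1))
    (hΔ : 16 * Δ = F1 ^ 2 * F2 ^ 2 - 16 * F1 ^ 3 - 4 * F2 ^ 3 * F + 72 * F2 * F1 * F
      - 432 * F ^ 2)
    (hG : G = F + F1 * u + F2 * u ^ 2 + 4 * u ^ 3) (hG0 : G ≠ 0)
    (h3 : (F1 + 2 * F2 * u + 12 * u ^ 2) ^ 2 = 4 * G * (F2 + 12 * u))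
    (hh : h = Δ / G ^ 2)
    (hρ : ρ = d ^ 2 / (u * (u - d))) :
    ρ ^ 5 * (ρ + 9) + 5 * ρ ^ 3 * h + (ρ - 1) * h ^ 2 = 0 := by
  subst e_d e_u e_F e_F1 e_F2
  have hΔ' : Δ = μ ^ 6 * (t ^ 5 * (t ^ 2 - 11 * t - 1)) := by
    linear_combination (1 / 16 : K) * hΔ
  have hG' : G = μ ^ 3
      * (4 * z ^ 3 + (t ^ 2 - 6 * t + 1) * z ^ 2 + 2 * (t ^ 2 - t) * z + t ^ 2) := by
    rw [hG]; ring
  have hg0 : 4 * z ^ 3 + (t ^ 2 - 6 * t + 1) * z ^ 2 + 2 * (t ^ 2 - t) * z + t ^ 2 ≠ 0 := by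
    intro h0
    apply hG0
    rw [hG', h0, mul_zero]
  have hψ : 3 * z ^ 4 + (t ^ 2 - 6 * t + 1) * z ^ 3 + 3 * (t ^ 2 - t) * z ^ 2 + 3 * t ^ 2 * z
      - t ^ 3 = 0 := by
    have h4 : μ ^ 4 * (3 * z ^ 4 + (t ^ 2 - 6 * t + 1) * z ^ 3 + 3 * (t ^ 2 - t) * z ^ 2
        + 3 * t ^ 2 * z - t ^ 3) = 0 := by
      rw [hG'] at h3
      linear_combination (-1 / 16 : K) * h3
    exact (mul_eq_zero.mp h4).resolve_left (pow_ne_zero 4 hμ)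
  have hzt' : z - t ≠ 0 := sub_ne_zero.mpr hzt
  refine alg_fifteen_quot t (z * (z - t))
    (4 * z ^ 3 + (t ^ 2 - 6 * t + 1) * z ^ 2 + 2 * (t ^ 2 - t) * z + t ^ 2)
    (t ^ 2 - 11 * t - 1) ρ h (mul_ne_zero hz hzt') hg0 ?_ ?_ (alg_fifteen_core t z hψ)
  · rw [hρ]
    field_simp
  · rw [hh, hΔ', hG']
    field_simp

/-- From the two duplication relations to the relations (I), (II) between Taylor coefficients. -/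
theorem alg_fifteen_rel {K : Type*} [Field K] [CharZero K] (F F1 F2 d : K) (hd : d ≠ 0)
    (R1 : 16 * F * d = F1 ^ 2 - 4 * F * F2)
    (R2 : 16 * (F + F1 * d + F2 * d ^ 2 + 4 * d ^ 3) * (-d)
      = (F1 + 2 * F2 * d + 12 * d ^ 2) ^ 2
        - 4 * (F + F1 * d + F2 * d ^ 2 + 4 * d ^ 3) * (F2 + 12 * d)) :
    d * F1 = 2 * d ^ 3 - 2 * F ∧ F2 * F * d ^ 2 = d ^ 6 - 6 * d ^ 3 * F + F ^ 2 := by
  have hI : d * F1 = 2 * d ^ 3 - 2 * F := by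
    have h8 : (8 * d) * (d * F1) = (8 * d) * (2 * d ^ 3 - 2 * F) := by
      linear_combination R2 - R1
    exact mul_left_cancel₀ (mul_ne_zero (by norm_num) hd) h8
  refine ⟨hI, ?_⟩
  linear_combination (1 / 4 : K) * (d * F1 + 2 * d ^ 3 - 2 * F) * hI + (1 / 4 : K) * d ^ 2 * R1

/-- The statement in terms of Taylor coefficients of the cubic at `x1`. -/
theorem alg_fifteen_taylor {K : Type*} [Field K] [CharZero K] (F F1 F2 d u Δ G h ρ : K)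
    (hF : F ≠ 0) (hd : d ≠ 0) (hu : u ≠ 0) (hud : u ≠ d)
    (R1 : 16 * F * d = F1 ^ 2 - 4 * F * F2)
    (R2 : 16 * (F + F1 * d + F2 * d ^ 2 + 4 * d ^ 3) * (-d)
      = (F1 + 2 * F2 * d + 12 * d ^ 2) ^ 2
        - 4 * (F + F1 * d + F2 * d ^ 2 + 4 * d ^ 3) * (F2 + 12 * d))
    (hΔ : 16 * Δ = F1 ^ 2 * F2 ^ 2 - 16 * F1 ^ 3 - 4 * F2 ^ 3 * F + 72 * F2 * F1 * F
      - 432 * F ^ 2)
    (hG : G = F + F1 * u + F2 * u ^ 2 + 4 * u ^ 3) (hG0 : G ≠ 0)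
    (h3 : (F1 + 2 * F2 * u + 12 * u ^ 2) ^ 2 = 4 * G * (F2 + 12 * u))
    (hh : h = Δ / G ^ 2)
    (hρ : ρ = d ^ 2 / (u * (u - d))) :
    ρ ^ 5 * (ρ + 9) + 5 * ρ ^ 3 * h + (ρ - 1) * h ^ 2 = 0 := by
  obtain ⟨hI, hII⟩ := alg_fifteen_rel F F1 F2 d hd R1 R2
  have hd2 : d ^ 2 ≠ 0 := pow_ne_zero 2 hd
  have hd3 : d ^ 3 ≠ 0 := pow_ne_zero 3 hd
  refine alg_fifteen_tate (F / d ^ 2) (d ^ 3 / F) (u * d ^ 2 / F) d u F F1 F2 Δ G h ρ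
    (div_ne_zero hF hd2) (div_ne_zero hd3 hF) (div_ne_zero (mul_ne_zero hu hd2) hF)
    ?_ ?_ ?_ ?_ ?_ ?_ hΔ hG hG0 h3 hh hρ
  · intro hzt
    apply hud
    have h1 : u * d ^ 2 = d * d ^ 2 := by
      have := (div_left_inj' hF).mp hzt
      linear_combination this
    exact mul_right_cancel₀ hd2 h1
  · field_simp
  · field_simp
  · field_simp
  · have e1 : F1 = (2 * d ^ 3 - 2 * F) / d := by
      rw [eq_div_iff hd]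
      linear_combination hI
    rw [e1]
    field_simp
  · have e2 : F2 = (d ^ 6 - 6 * d ^ 3 * F + F ^ 2) / (F * d ^ 2) := by
      rw [eq_div_iff (mul_ne_zero hF hd2)]
      linear_combination hII
    rw [e2]
    field_simp

theorem alg_fifteen {K : Type*} [Field K] [CharZero K] (b2 b4 b6 b8 x0 x1 x2 Δ h ρ : K)
    (hb : 4 * b8 = b2 * b6 - b4 ^ 2)
    (hΔ : Δ = -b2 ^ 2 * b8 - 8 * b4 ^ 3 - 27 * b6 ^ 2 + 9 * b2 * b4 * b6)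
    (hf0 : 4 * x0 ^ 3 + b2 * x0 ^ 2 + 2 * b4 * x0 + b6 ≠ 0)
    (h3 : x0 ^ 4 - b4 * x0 ^ 2 - 2 * b6 * x0 - b8
        = x0 * (4 * x0 ^ 3 + b2 * x0 ^ 2 + 2 * b4 * x0 + b6))
    (hf1 : 4 * x1 ^ 3 + b2 * x1 ^ 2 + 2 * b4 * x1 + b6 ≠ 0)
    (hf2 : 4 * x2 ^ 3 + b2 * x2 ^ 2 + 2 * b4 * x2 + b6 ≠ 0)
    (h51 : x1 ^ 4 - b4 * x1 ^ 2 - 2 * b6 * x1 - b8
        = x2 * (4 * x1 ^ 3 + b2 * x1 ^ 2 + 2 * b4 * x1 + b6))
    (h52 : x2 ^ 4 - b4 * x2 ^ 2 - 2 * b6 * x2 - b8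
        = x1 * (4 * x2 ^ 3 + b2 * x2 ^ 2 + 2 * b4 * x2 + b6))
    (h12 : x1 ≠ x2)
    (hh : h = Δ / (4 * x0 ^ 3 + b2 * x0 ^ 2 + 2 * b4 * x0 + b6) ^ 2)
    (hρ : ρ = (x1 - x2) ^ 2 / ((x0 - x1) * (x0 - x2))) :
    ρ ^ 5 * (ρ + 9) + 5 * ρ ^ 3 * h + (ρ - 1) * h ^ 2 = 0 ∧ ρ ≠ 0 := by
  -- `x0` is different from `x1` and `x2`
  have h01 : x0 ≠ x1 := by
    intro e
    subst e
    apply h12
    have hm : x0 * (4 * x0 ^ 3 + b2 * x0 ^ 2 + 2 * b4 * x0 + b6)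
        = x2 * (4 * x0 ^ 3 + b2 * x0 ^ 2 + 2 * b4 * x0 + b6) := by
      rw [← h3, ← h51]
    exact mul_right_cancel₀ hf0 hm
  have h02 : x0 ≠ x2 := by
    intro e
    subst e
    apply h12
    have hm : x1 * (4 * x0 ^ 3 + b2 * x0 ^ 2 + 2 * b4 * x0 + b6)
        = x0 * (4 * x0 ^ 3 + b2 * x0 ^ 2 + 2 * b4 * x0 + b6) := by
      rw [← h3, ← h52]
    exact mul_right_cancel₀ hf0 hm
  have hu : x0 - x1 ≠ 0 := sub_ne_zero.mpr h01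
  have hv : x0 - x2 ≠ 0 := sub_ne_zero.mpr h02
  have hd : x2 - x1 ≠ 0 := sub_ne_zero.mpr (Ne.symm h12)
  have hd' : x1 - x2 ≠ 0 := sub_ne_zero.mpr h12
  refine ⟨?_, ?_⟩
  · refine alg_fifteen_taylor (4 * x1 ^ 3 + b2 * x1 ^ 2 + 2 * b4 * x1 + b6)
      (12 * x1 ^ 2 + 2 * b2 * x1 + 2 * b4) (12 * x1 + b2) (x2 - x1) (x0 - x1) Δ
      (4 * x0 ^ 3 + b2 * x0 ^ 2 + 2 * b4 * x0 + b6) h ρ hf1 hd hu ?_ ?_ ?_ ?_ ?_ hf0 ?_ hh ?_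
    · intro e
      apply h02
      linear_combination e
    · exact alg_T1 b2 b4 b6 b8 x1 x2 hb h51
    · have := alg_T1 b2 b4 b6 b8 x2 x1 hb h52
      linear_combination this
    · exact alg_T3 b2 b4 b6 b8 x1 Δ hb hΔ
    · ring
    · have := alg_T1 b2 b4 b6 b8 x0 x0 hb h3
      linear_combination -this
    · rw [hρ]
      congr 1
      · ring
      · ring
  · rw [hρ]
    exact div_ne_zero (pow_ne_zero 2 hd') (mul_ne_zero hu hv)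

end Fermat.Agent.S51
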