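import Mathlib

/-!
# S51 helper file: duplication formula on x-coordinates, 3- and 5-torsion x-coordinate relations
-/

namespace Fermat.Agent.S51

open WeierstrassCurve WeierstrassCurve.Affine

variable {K : Type*} [Field K]

/-- The cubic `4x³ + b₂x² + 2b₄x + b₆` (the square of the 2-division polynomial). -/
def fpol (W : WeierstrassCurve K) (x : K) : K :=
  4 * x ^ 3 + W.b₂ * x ^ 2 + 2 * W.b₄ * x + W.b₆

/-- The quartic `x⁴ - b₄x² - 2b₆x - b₈` (numerator of the x-coordinate of `2P`). -/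
def phipol (W : WeierstrassCurve K) (x : K) : K :=
  x ^ 4 - W.b₄ * x ^ 2 - 2 * W.b₆ * x - W.b₈

lemma sq_eq_fpol {W : Affine K} {x y : K} (h : W.Equation x y) :
    (y - W.negY x y) ^ 2 = fpol W x := by
  rw [equation_iff] at h
  simp only [fpol, negY, WeierstrassCurve.b₂, WeierstrassCurve.b₄, WeierstrassCurve.b₆]
  linear_combination 4 * h

lemma fpol_ne_zero_iff {W : Affine K} {x y : K} (h : W.Equation x y) :
    fpol W x ≠ 0 ↔ y ≠ W.negY x y := by
  rw [← sq_eq_fpol h, ne_eq, ne_eq, sq_eq_zero_iff, sub_eq_zero]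

variable [DecidableEq K]

lemma dup_x {W : Affine K} {x y : K} (h : W.Equation x y) (hy : y ≠ W.negY x y) :
    W.addX x x (W.slope x x y y) * fpol W x = phipol W x := by
  have hy' : y - W.negY x y ≠ 0 := sub_ne_zero.mpr hy
  have hℓ : W.slope x x y y * (y - W.negY x y)
      = 3 * x ^ 2 + 2 * W.a₂ * x + W.a₄ - W.a₁ * y := by
    rw [slope_of_Y_ne rfl hy]
    field_simp
  rw [← sq_eq_fpol h]
  rw [equation_iff] at h
  simp only [negY] at hℓ
  simp only [addX, phipol, negY, WeierstrassCurve.b₄, WeierstrassCurve.b₆, WeierstrassCurve.b₈]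
  linear_combination (W.slope x x y y * (y - (-y - W.a₁ * x - W.a₃))
    + (3 * x ^ 2 + 2 * W.a₂ * x + W.a₄ - W.a₁ * y) + W.a₁ * (y - (-y - W.a₁ * x - W.a₃))) * hℓ
    + (-8 * x - W.a₁ ^ 2 - 4 * W.a₂) * h

/-- Doubling an affine point: either `2P = 0` (and `fpol` vanishes at `x`), or `2P` is affine with
x-coordinate `x'` satisfying `x' * fpol x = phipol x`. -/
lemma two_nsmul_some {W : Affine K} {x y : K} (h : W.Nonsingular x y) :
    (fpol W x = 0 ∧ (2 : ℕ) • (Point.some x y h) = 0) ∨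
    (fpol W x ≠ 0 ∧ ∃ (x' y' : K) (h' : W.Nonsingular x' y'),
        (2 : ℕ) • Point.some x y h = Point.some x' y' h' ∧ x' * fpol W x = phipol W x) := by
  by_cases hy : y = W.negY x y
  · left
    refine ⟨?_, ?_⟩
    · rw [← sq_eq_fpol h.1, sq_eq_zero_iff, sub_eq_zero]; exact hy
    · rw [two_nsmul]; exact Point.add_self_of_Y_eq hy
  · right
    refine ⟨(fpol_ne_zero_iff h.1).mpr hy, W.addX x x (W.slope x x y y),
      W.addY x x y (W.slope x x y y), nonsingular_add h h (fun hxy => hy hxy.right), ?_,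
      dup_x h.1 hy⟩
    rw [two_nsmul]; exact Point.add_self_of_Y_ne hy

/-- If `2P` is affine then `fpol` does not vanish at `x(P)` and the duplication formula holds. -/
lemma two_nsmul_eq_some {W : Affine K} {x y x' y' : K} {h : W.Nonsingular x y}
    {h' : W.Nonsingular x' y'} (h2 : (2 : ℕ) • Point.some x y h = Point.some x' y' h') :
    fpol W x ≠ 0 ∧ x' * fpol W x = phipol W x := by
  rcases two_nsmul_some h with ⟨-, h0⟩ | ⟨hf, x'', y'', h'', h2', hx⟩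
  · rw [h0] at h2; exact absurd h2.symm (Point.some_ne_zero _)
  · rw [h2'] at h2
    have : x'' = x' := by injection h2
    subst this
    exact ⟨hf, hx⟩

/-- x-coordinate relation for a point of order 3. -/
lemma three_torsion_x {W : Affine K} (P : W.Point) (hP : P ≠ 0) (h3 : (3 : ℕ) • P = 0) :
    ∃ (x y : K) (h : W.Nonsingular x y), P = Point.some x y h ∧ fpol W x ≠ 0 ∧
      phipol W x = x * fpol W x := by
  rcases P with _ | ⟨x, y, h⟩
  · exact absurd rfl hP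
  refine ⟨x, y, h, rfl, ?_⟩
  have h2 : (2 : ℕ) • Point.some x y h = -Point.some x y h := by
    rw [eq_neg_iff_add_eq_zero, ← succ_nsmul]; exact h3
  rw [Point.neg_some] at h2
  obtain ⟨hf, hx⟩ := two_nsmul_eq_some h2
  exact ⟨hf, hx.symm⟩

/-- Conversely, an affine point whose x-coordinate satisfies the 3-division relation is 3-torsion. -/
lemma three_torsion_of_x {W : Affine K} {x y : K} (h : W.Nonsingular x y) (hf : fpol W x ≠ 0)
    (h3 : phipol W x = x * fpol W x) : (3 : ℕ) • Point.some x y h = 0 := by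
  rcases two_nsmul_some h with ⟨hf0, -⟩ | ⟨-, x', y', h', h2, hx⟩
  · exact absurd hf0 hf
  have hxx : x' = x := by
    have : x' * fpol W x = x * fpol W x := by rw [hx, h3]
    exact mul_right_cancel₀ hf this
  subst hxx
  rcases Point.X_eq_iff.mp (rfl : x' = x') with hE | hE
  · -- 2P = P, so P = 0: impossible
    exfalso
    have h0 : Point.some x' y h = 0 := by
      have : (2 : ℕ) • Point.some x' y h = Point.some x' y h := by rw [h2]; exact hE
      rw [two_nsmul] at this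
      exact add_eq_right.mp this
    exact Point.some_ne_zero _ h0
  · rw [succ_nsmul, h2, hE, neg_add_cancel]

/-- x-coordinate relations for a point of order 5: `x₁ = x(P)`, `x₂ = x(2P)`. -/
lemma five_torsion_x {W : Affine K} (P : W.Point) (hP : P ≠ 0) (h5 : (5 : ℕ) • P = 0) :
    ∃ (x₁ y₁ : K) (h₁ : W.Nonsingular x₁ y₁) (x₂ y₂ : K) (h₂ : W.Nonsingular x₂ y₂),
      P = Point.some x₁ y₁ h₁ ∧ (2 : ℕ) • P = Point.some x₂ y₂ h₂ ∧
      fpol W x₁ ≠ 0 ∧ fpol W x₂ ≠ 0 ∧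
      phipol W x₁ = x₂ * fpol W x₁ ∧ phipol W x₂ = x₁ * fpol W x₂ ∧ x₁ ≠ x₂ := by
  have h5' : (2 : ℕ) • ((2 : ℕ) • P) + P = 0 := by
    rw [← mul_nsmul, ← succ_nsmul]; exact h5
  have h2ne : (2 : ℕ) • P ≠ 0 := by
    intro h2
    apply hP
    rw [h2, nsmul_zero, zero_add] at h5'
    exact h5'
  have h4ne : (2 : ℕ) • ((2 : ℕ) • P) ≠ 0 := by
    intro h4
    apply hP
    rw [h4, zero_add] at h5'
    exact h5'
  obtain ⟨x₁, y₁, h₁, rfl⟩ : ∃ (x₁ y₁ : K) (h₁ : W.Nonsingular x₁ y₁), P = Point.some x₁ y₁ h₁ := by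
    rcases P with _ | ⟨x₁, y₁, h₁⟩
    · exact absurd rfl hP
    · exact ⟨x₁, y₁, h₁, rfl⟩
  obtain ⟨x₂, y₂, h₂, h2P⟩ : ∃ (x₂ y₂ : K) (h₂ : W.Nonsingular x₂ y₂),
      (2 : ℕ) • Point.some x₁ y₁ h₁ = Point.some x₂ y₂ h₂ := by
    rcases h : (2 : ℕ) • Point.some x₁ y₁ h₁ with _ | ⟨x₂, y₂, h₂⟩
    · exact absurd h h2ne
    · exact ⟨x₂, y₂, h₂, rfl⟩
  obtain ⟨hf1, hx1⟩ := two_nsmul_eq_some h2P
  rw [h2P] at h4ne h5'
  obtain ⟨x₄, y₄, h₄, h4P⟩ : ∃ (x₄ y₄ : K) (h₄ : W.Nonsingular x₄ y₄),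
      (2 : ℕ) • Point.some x₂ y₂ h₂ = Point.some x₄ y₄ h₄ := by
    rcases h : (2 : ℕ) • Point.some x₂ y₂ h₂ with _ | ⟨x₄, y₄, h₄⟩
    · exact absurd h h4ne
    · exact ⟨x₄, y₄, h₄, rfl⟩
  obtain ⟨hf2, hx2⟩ := two_nsmul_eq_some h4P
  -- 4P = -P
  have h4 : Point.some x₄ y₄ h₄ = -Point.some x₁ y₁ h₁ := by
    rw [← h4P, eq_neg_iff_add_eq_zero]; exact h5'
  have hx4 : x₄ = x₁ := by
    rw [Point.neg_some] at h4
    injection h4
  subst hx4
  refine ⟨x₄, y₁, h₁, x₂, y₂, h₂, rfl, h2P, hf1, hf2, hx1.symm, hx2.symm, ?_⟩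
  -- x₁ ≠ x₂
  intro hx
  subst hx
  -- 2P = ±P
  rcases (Point.X_eq_iff (h₁ := h₂) (h₂ := h₁)).mp rfl with hE | hE
  · -- 2P = P
    apply hP
    rw [hE, two_nsmul] at h2P
    exact add_eq_right.mp h2P
  · -- 2P = -P, so 3P = 0, so 2P = 5P - 3P = 0
    apply h2ne
    have h3 : (3 : ℕ) • Point.some x₄ y₁ h₁ = 0 := by
      rw [succ_nsmul, h2P, hE, neg_add_cancel]
    have : (5 : ℕ) • Point.some x₄ y₁ h₁
        = (2 : ℕ) • Point.some x₄ y₁ h₁ + (3 : ℕ) • Point.some x₄ y₁ h₁ := by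
      rw [← add_nsmul]
    rw [this, h3, add_zero] at h5
    exact h5

/-- Conversely: an affine point whose x-coordinate `x₁` satisfies the period-2 duplication relations
with some `x₂ ≠ x₁` is 5-torsion. -/
lemma five_torsion_of_x {W : Affine K} {x₁ y₁ : K} (h₁ : W.Nonsingular x₁ y₁) (x₂ : K)
    (hf1 : fpol W x₁ ≠ 0) (hf2 : fpol W x₂ ≠ 0)
    (h51 : phipol W x₁ = x₂ * fpol W x₁) (h52 : phipol W x₂ = x₁ * fpol W x₂) (h12 : x₁ ≠ x₂) :
    (5 : ℕ) • Point.some x₁ y₁ h₁ = 0 := by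
  rcases two_nsmul_some h₁ with ⟨hf0, -⟩ | ⟨-, x₂', y₂, h₂, h2P, hx⟩
  · exact absurd hf0 hf1
  have hxx : x₂' = x₂ := by
    have : x₂' * fpol W x₁ = x₂ * fpol W x₁ := by rw [hx, h51]
    exact mul_right_cancel₀ hf1 this
  subst hxx
  rcases two_nsmul_some h₂ with ⟨hf0, -⟩ | ⟨-, x₄, y₄, h₄, h4P, hx4⟩
  · exact absurd hf0 hf2
  have hxx : x₄ = x₁ := by
    have : x₄ * fpol W x₂' = x₁ * fpol W x₂' := by rw [hx4, h52]
    exact mul_right_cancel₀ hf2 this
  subst hxx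
  have h5 : (5 : ℕ) • Point.some x₄ y₁ h₁
      = (2 : ℕ) • ((2 : ℕ) • Point.some x₄ y₁ h₁) + Point.some x₄ y₁ h₁ := by
    rw [← mul_nsmul, ← succ_nsmul]
  rw [h5, h2P, h4P]
  rcases (Point.X_eq_iff (h₁ := h₄) (h₂ := h₁)).mp rfl with hE | hE
  · -- 4P = P: then 3P = 0, so 2P = -P and x₂ = x₁
    exfalso
    apply h12
    have h3 : (2 : ℕ) • Point.some x₄ y₁ h₁ + Point.some x₄ y₁ h₁ = 0 := by
      have h4' : (2 : ℕ) • ((2 : ℕ) • Point.some x₄ y₁ h₁) = Point.some x₄ y₁ h₁ := by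
        rw [h2P, h4P, hE]
      have : (2 : ℕ) • ((2 : ℕ) • Point.some x₄ y₁ h₁)
          = ((2 : ℕ) • Point.some x₄ y₁ h₁ + Point.some x₄ y₁ h₁) + Point.some x₄ y₁ h₁ := by
        rw [← mul_nsmul, ← succ_nsmul, ← succ_nsmul]
      rw [this] at h4'
      exact add_eq_right.mp h4'
    rw [h2P, ← eq_neg_iff_add_eq_zero, Point.neg_some] at h3
    injection h3 with hx' _
    exact hx'.symm
  · rw [hE, neg_add_cancel]

end Fermat.Agent.S51
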