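import Fermat.Agent.S51.Basic

/-!
# S51 helper file: the `p`-torsion of a Weierstrass curve has rank at most two (`p = 3, 5`)

The main statement `tca_cyclic` says: a subgroup `N` of the `p`-torsion of the group of nonsingular
points which contains a nonzero point `P` and misses some `p`-torsion point consists of the
multiples of `P`.
-/

namespace Fermat.Agent.S51

open WeierstrassCurve WeierstrassCurve.Affine

/-! ### Group theory -/

/-- In a finite `ZMod p`-vector space with fewer than `p ^ 3` elements, a proper additive subgroup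
containing a nonzero element `P` consists of the multiples of `P`. -/
theorem tca_group_mod {G : Type*} [AddCommGroup G] [Finite G] (p : ℕ) [Fact p.Prime]
    [Module (ZMod p) G] (hcard : Nat.card G < p ^ 3)
    (N : AddSubgroup G) (P : G) (hPN : P ∈ N) (hP0 : P ≠ 0) (Q₀ : G) (hQ₀N : Q₀ ∉ N) :
    ∀ Q ∈ N, ∃ k : ℕ, Q = k • P := by
  have hrank : Module.finrank (ZMod p) G < 3 := by
    have h1 : Nat.card G = Nat.card (ZMod p) ^ Module.finrank (ZMod p) G :=
      Module.natCard_eq_pow_finrank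
    rw [Nat.card_zmod] at h1
    rw [h1] at hcard
    exact (Nat.pow_lt_pow_iff_right (Fact.out : p.Prime).one_lt).mp hcard
  obtain ⟨N', hN'⟩ : ∃ N' : Submodule (ZMod p) G, ∀ x, x ∈ N' ↔ x ∈ N :=
    ⟨AddSubgroup.toZModSubmodule p N, fun x => AddSubgroup.mem_toZModSubmodule p⟩
  have hlt : Module.finrank (ZMod p) N' < Module.finrank (ZMod p) G := by
    apply Submodule.finrank_lt
    intro htop
    apply hQ₀N
    rw [← hN', htop]
    trivial
  have hPN' : P ∈ N' := (hN' P).mpr hPN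
  have hP0' : (⟨P, hPN'⟩ : N') ≠ 0 := fun h => hP0 (congrArg Subtype.val h)
  have hpos : 0 < Module.finrank (ZMod p) N' := by
    rw [Module.finrank_pos_iff_exists_ne_zero]
    exact ⟨⟨P, hPN'⟩, hP0'⟩
  have h1 : Module.finrank (ZMod p) N' = 1 := by omega
  intro Q hQ
  obtain ⟨c, hc⟩ := (finrank_eq_one_iff_of_nonzero' _ hP0').mp h1 ⟨Q, (hN' Q).mpr hQ⟩
  refine ⟨c.val, ?_⟩
  have h2 : c • P = Q := congrArg Subtype.val hc
  rw [← h2, ← Nat.cast_smul_eq_nsmul (ZMod p), ZMod.natCast_zmod_val]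

/-- In a finite abelian group killed by a prime `p` with fewer than `p ^ 3` elements, a proper
subgroup containing a nonzero element `P` consists of the multiples of `P`. -/
theorem tca_group_aux {G : Type*} [AddCommGroup G] [Finite G] (p : ℕ) [Fact p.Prime]
    (hG : ∀ x : G, p • x = 0) (hcard : Nat.card G < p ^ 3)
    (N : AddSubgroup G) (P : G) (hPN : P ∈ N) (hP0 : P ≠ 0) (Q₀ : G) (hQ₀N : Q₀ ∉ N) :
    ∀ Q ∈ N, ∃ k : ℕ, Q = k • P :=
  @tca_group_mod G _ _ p _ (AddCommGroup.zmodModule hG) hcard N P hPN hP0 Q₀ hQ₀N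

/-- Version of `tca_group_aux` inside an ambient group: the `p`-torsion is only assumed to be
a finite set with fewer than `p ^ 3` elements. -/
theorem tca_group {G : Type*} [AddCommGroup G] (p : ℕ) [Fact p.Prime]
    (hfin : {Q : G | p • Q = 0}.Finite) (hcard : {Q : G | p • Q = 0}.ncard < p ^ 3)
    (N : AddSubgroup G) (hN : ∀ Q ∈ N, p • Q = 0) (P : G) (hPN : P ∈ N) (hP0 : P ≠ 0)
    (Q₀ : G) (hQ₀ : p • Q₀ = 0) (hQ₀N : Q₀ ∉ N) :
    ∀ Q ∈ N, ∃ k : ℕ, Q = k • P := by
  obtain ⟨H, hH⟩ : ∃ H : AddSubgroup G, (H : Set G) = {Q : G | p • Q = 0} :=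
    ⟨(nsmulAddMonoidHom p : G →+ G).ker, by ext Q; simp [AddMonoidHom.mem_ker]⟩
  have hmem : ∀ Q : G, Q ∈ H ↔ p • Q = 0 := fun Q => by
    rw [← SetLike.mem_coe, hH]; rfl
  have hfinH : Finite H := by
    have : Finite (H : Set G) := by rw [hH]; exact hfin.to_subtype
    exact this
  have hcard' : Nat.card H < p ^ 3 := by
    have h1 : Nat.card H = (H : Set G).ncard := Nat.card_coe_set_eq _
    rw [h1, hH]
    exact hcard
  have hHtors : ∀ x : H, p • x = 0 := fun x => Subtype.ext (by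
    rw [AddSubgroup.coe_nsmul]; exact (hmem x).mp x.2)
  have hPH : P ∈ H := (hmem P).mpr (hN P hPN)
  have key := tca_group_aux (G := H) p hHtors hcard' (N.addSubgroupOf H) ⟨P, hPH⟩
    (AddSubgroup.mem_addSubgroupOf.mpr hPN) (fun h => hP0 (congrArg Subtype.val h))
    ⟨Q₀, (hmem Q₀).mpr hQ₀⟩ (fun h => hQ₀N (AddSubgroup.mem_addSubgroupOf.mp h))
  intro Q hQ
  obtain ⟨k, hk⟩ := key ⟨Q, (hmem Q).mpr (hN Q hQ)⟩ (AddSubgroup.mem_addSubgroupOf.mpr hQ)
  exact ⟨k, by simpa using congrArg Subtype.val hk⟩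

/-! ### Counting points with prescribed x-coordinates -/

/-- The x-coordinate of a point (`none` for the point at infinity). -/
def tca_xc {K : Type*} [Field K] {W : Affine K} : W.Point → Option K
  | .zero => none
  | .some x _ _ => some x

lemma tca_xc_eq {K : Type*} [Field K] {W : Affine K} {Q Q' : W.Point}
    (h : tca_xc Q = tca_xc Q') : Q = Q' ∨ Q = -Q' := by
  rcases Q with _ | ⟨x, y, hxy⟩ <;> rcases Q' with _ | ⟨x', y', hxy'⟩
  · exact Or.inl rfl
  · simp [tca_xc] at h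
  · simp [tca_xc] at h
  · have hx : x = x' := by simpa [tca_xc] using h
    exact Point.X_eq_iff.mp hx

lemma tca_card_le_two {G : Type*} [Neg G] [DecidableEq G] (s : Finset G)
    (h : ∀ a ∈ s, ∀ b ∈ s, a = b ∨ a = -b) : s.card ≤ 2 := by
  rcases s.eq_empty_or_nonempty with rfl | ⟨a, ha⟩
  · simp
  · have hsub : s ⊆ {a, -a} := by
      intro b hb
      rcases h b hb a ha with h1 | h1 <;> simp [h1]
    exact (Finset.card_le_card hsub).trans Finset.card_le_two

/-- A set of points all of whose affine members have x-coordinate a root of a fixed nonzero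
polynomial `g` is finite, of cardinality at most `2 * (deg g + 1)`. -/
lemma tca_finite_of_roots {K : Type*} [Field K] (W : Affine K) (g : Polynomial K) (hg : g ≠ 0)
    (S : Set W.Point)
    (hS : ∀ Q ∈ S, Q = Point.zero ∨
      ∃ x y, ∃ h : W.Nonsingular x y, Q = Point.some x y h ∧ g.eval x = 0) :
    S.Finite ∧ S.ncard ≤ 2 * (g.natDegree + 1) := by
  classical
  obtain ⟨R, hR0, hR1, hRcard⟩ : ∃ R : Finset (Option K), none ∈ R ∧
      (∀ x : K, g.eval x = 0 → some x ∈ R) ∧ R.card ≤ g.natDegree + 1 := by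
    refine ⟨Finset.insertNone g.roots.toFinset, Finset.none_mem_insertNone, ?_, ?_⟩
    · intro x hx
      rw [Finset.some_mem_insertNone, Multiset.mem_toFinset, Polynomial.mem_roots hg]
      exact hx
    · rw [Finset.card_insertNone]
      exact Nat.succ_le_succ ((Multiset.toFinset_card_le _).trans (Polynomial.card_roots' g))
  have hmaps : ∀ Q ∈ S, tca_xc Q ∈ R := by
    intro Q hQ
    rcases hS Q hQ with rfl | ⟨x, y, h, rfl, hx⟩
    · exact hR0
    · exact hR1 x hx
  have hfin : S.Finite := by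
    refine Set.Finite.subset (Set.Finite.preimage' (f := tca_xc) R.finite_toSet ?_)
      (fun Q hQ => hmaps Q hQ)
    intro b _
    by_cases hne : (tca_xc ⁻¹' {b} : Set W.Point).Nonempty
    · obtain ⟨Q₁, hQ₁⟩ := hne
      apply Set.Finite.subset (Set.toFinite {Q₁, -Q₁})
      intro Q hQ
      have hQ' : tca_xc Q = tca_xc Q₁ := by
        rw [Set.mem_preimage, Set.mem_singleton_iff] at hQ hQ₁
        rw [hQ, hQ₁]
      rcases tca_xc_eq hQ' with h | h <;> simp [h]
    · rw [Set.not_nonempty_iff_eq_empty.mp hne]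
      exact Set.finite_empty
  refine ⟨hfin, ?_⟩
  rw [Set.ncard_eq_toFinset_card S hfin]
  have hle := Finset.card_le_mul_card_image_of_maps_to (f := tca_xc) (s := hfin.toFinset) (t := R)
    (fun a ha => hmaps a (hfin.mem_toFinset.mp ha)) 2 (fun b _ => tca_card_le_two _ (by
      intro a ha c hc
      rw [Finset.mem_filter] at ha hc
      exact tca_xc_eq (ha.2.trans hc.2.symm)))
  exact hle.trans (Nat.mul_le_mul_left 2 hRcard)

/-! ### The polynomials cutting out the x-coordinates of 3- and 5-torsion points -/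

open Polynomial in
/-- `fpol` as a polynomial. -/
noncomputable def tca_F {K : Type*} [Field K] (W : WeierstrassCurve K) : Polynomial K :=
  4 * X ^ 3 + C W.b₂ * X ^ 2 + 2 * C W.b₄ * X + C W.b₆

open Polynomial in
/-- `phipol` as a polynomial. -/
noncomputable def tca_Phi {K : Type*} [Field K] (W : WeierstrassCurve K) : Polynomial K :=
  X ^ 4 - C W.b₄ * X ^ 2 - 2 * C W.b₆ * X - C W.b₈

lemma tca_eval_F {K : Type*} [Field K] (W : WeierstrassCurve K) (x : K) :
    (tca_F W).eval x = fpol W x := by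
  simp [tca_F, fpol]

lemma tca_eval_Phi {K : Type*} [Field K] (W : WeierstrassCurve K) (x : K) :
    (tca_Phi W).eval x = phipol W x := by
  simp [tca_Phi, phipol]

open Polynomial in
/-- A polynomial of degree 4 vanishing at the x-coordinates of the points of order 3. -/
noncomputable def tca_g3 {K : Type*} [Field K] (W : WeierstrassCurve K) : Polynomial K :=
  tca_Phi W - X * tca_F W

lemma tca_natDegree_g3 {K : Type*} [Field K] [CharZero K] (W : WeierstrassCurve K) :
    (tca_g3 W).natDegree = 4 := by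
  unfold tca_g3 tca_Phi tca_F
  compute_degree!

lemma tca_eval_g3 {K : Type*} [Field K] (W : WeierstrassCurve K) (x : K) :
    (tca_g3 W).eval x = phipol W x - x * fpol W x := by
  rw [tca_g3, Polynomial.eval_sub, Polynomial.eval_mul, Polynomial.eval_X, tca_eval_Phi,
    tca_eval_F]

open Polynomial in
/-- A polynomial of degree 16 vanishing at the x-coordinates of the points of order 5. -/
noncomputable def tca_g5 {K : Type*} [Field K] (W : WeierstrassCurve K) : Polynomial K :=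
  tca_Phi W ^ 4 - C W.b₄ * tca_Phi W ^ 2 * tca_F W ^ 2 - 2 * C W.b₆ * tca_Phi W * tca_F W ^ 3
    - C W.b₈ * tca_F W ^ 4
    - X * tca_F W * (4 * tca_Phi W ^ 3 + C W.b₂ * tca_Phi W ^ 2 * tca_F W
        + 2 * C W.b₄ * tca_Phi W * tca_F W ^ 2 + C W.b₆ * tca_F W ^ 3)

lemma tca_natDegree_g5 {K : Type*} [Field K] [CharZero K] (W : WeierstrassCurve K) :
    (tca_g5 W).natDegree = 16 := by
  unfold tca_g5 tca_Phi tca_F
  compute_degree!

lemma tca_eval_g5 {K : Type*} [Field K] (W : WeierstrassCurve K) (x : K) :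
    (tca_g5 W).eval x = phipol W x ^ 4 - W.b₄ * phipol W x ^ 2 * fpol W x ^ 2
      - 2 * W.b₆ * phipol W x * fpol W x ^ 3 - W.b₈ * fpol W x ^ 4
      - x * fpol W x * (4 * phipol W x ^ 3 + W.b₂ * phipol W x ^ 2 * fpol W x
        + 2 * W.b₄ * phipol W x * fpol W x ^ 2 + W.b₆ * fpol W x ^ 3) := by
  simp only [tca_g5, Polynomial.eval_sub, Polynomial.eval_add, Polynomial.eval_mul,
    Polynomial.eval_pow, Polynomial.eval_X, Polynomial.eval_C, Polynomial.eval_ofNat,
    tca_eval_Phi, tca_eval_F]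

/-- The algebraic identity behind `tca_g5`: if `φ₁ = x₂ f₁` and `φ(x₂) = x₁ f(x₂)` then the value
of `tca_g5` at `x₁` (written in terms of `φ₁ = φ(x₁)` and `f₁ = f(x₁)`) vanishes. -/
lemma tca_alg5 {K : Type*} [Field K] (b₂ b₄ b₆ b₈ x₁ x₂ f₁ φ₁ : K) (h1 : φ₁ = x₂ * f₁)
    (h2 : x₂ ^ 4 - b₄ * x₂ ^ 2 - 2 * b₆ * x₂ - b₈
      = x₁ * (4 * x₂ ^ 3 + b₂ * x₂ ^ 2 + 2 * b₄ * x₂ + b₆)) :
    φ₁ ^ 4 - b₄ * φ₁ ^ 2 * f₁ ^ 2 - 2 * b₆ * φ₁ * f₁ ^ 3 - b₈ * f₁ ^ 4
      - x₁ * f₁ * (4 * φ₁ ^ 3 + b₂ * φ₁ ^ 2 * f₁ + 2 * b₄ * φ₁ * f₁ ^ 2 + b₆ * f₁ ^ 3) = 0 := by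
  subst h1
  linear_combination f₁ ^ 4 * h2

/-! ### Bounds for the 3- and 5-torsion -/

lemma tca_tors3_bound {K : Type*} [Field K] [CharZero K] [DecidableEq K] (W : Affine K) :
    {Q : W.Point | 3 • Q = 0}.Finite ∧ {Q : W.Point | 3 • Q = 0}.ncard < 3 ^ 3 := by
  have hg : tca_g3 W ≠ 0 := by
    intro h
    have h4 := tca_natDegree_g3 W
    rw [h, Polynomial.natDegree_zero] at h4
    exact absurd h4 (by norm_num)
  obtain ⟨hfin, hcard⟩ := tca_finite_of_roots W (tca_g3 W) hg {Q : W.Point | 3 • Q = 0} (by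
    intro Q hQ
    by_cases hQ0 : Q = 0
    · exact Or.inl hQ0
    · right
      obtain ⟨x, y, h, rfl, -, h3⟩ := three_torsion_x Q hQ0 hQ
      refine ⟨x, y, h, rfl, ?_⟩
      rw [tca_eval_g3, h3, sub_self])
  refine ⟨hfin, ?_⟩
  rw [tca_natDegree_g3] at hcard
  exact lt_of_le_of_lt hcard (by norm_num)

lemma tca_tors5_bound {K : Type*} [Field K] [CharZero K] [DecidableEq K] (W : Affine K) :
    {Q : W.Point | 5 • Q = 0}.Finite ∧ {Q : W.Point | 5 • Q = 0}.ncard < 5 ^ 3 := by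
  have hg : tca_g5 W ≠ 0 := by
    intro h
    have h16 := tca_natDegree_g5 W
    rw [h, Polynomial.natDegree_zero] at h16
    exact absurd h16 (by norm_num)
  obtain ⟨hfin, hcard⟩ := tca_finite_of_roots W (tca_g5 W) hg {Q : W.Point | 5 • Q = 0} (by
    intro Q hQ
    by_cases hQ0 : Q = 0
    · exact Or.inl hQ0
    · right
      obtain ⟨x₁, y₁, h₁, x₂, y₂, h₂, rfl, -, -, -, h51, h52, -⟩ := five_torsion_x Q hQ0 hQ
      refine ⟨x₁, y₁, h₁, rfl, ?_⟩
      rw [tca_eval_g5]
      exact tca_alg5 W.b₂ W.b₄ W.b₆ W.b₈ x₁ x₂ (fpol W x₁) (phipol W x₁) h51 h52)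
  refine ⟨hfin, ?_⟩
  rw [tca_natDegree_g5] at hcard
  exact lt_of_le_of_lt hcard (by norm_num)

/-! ### The main statement -/

theorem tca_cyclic {K : Type*} [Field K] [CharZero K] [DecidableEq K]
    (W : WeierstrassCurve.Affine K) (p : ℕ) (hp : p = 3 ∨ p = 5)
    (N : AddSubgroup W.Point) (hN : ∀ Q ∈ N, p • Q = 0)
    (P : W.Point) (hPN : P ∈ N) (hP0 : P ≠ 0)
    (Q₀ : W.Point) (hQ₀ : p • Q₀ = 0) (hQ₀N : Q₀ ∉ N) :
    ∀ Q ∈ N, ∃ k : ℕ, Q = k • P := by
  rcases hp with rfl | rfl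
  · have hprime : Fact (Nat.Prime 3) := ⟨by norm_num⟩
    obtain ⟨hfin, hcard⟩ := tca_tors3_bound W
    exact tca_group 3 hfin hcard N hN P hPN hP0 Q₀ hQ₀ hQ₀N
  · have hprime : Fact (Nat.Prime 5) := ⟨by norm_num⟩
    obtain ⟨hfin, hcard⟩ := tca_tors5_bound W
    exact tca_group 5 hfin hcard N hN P hPN hP0 Q₀ hQ₀ hQ₀N

end Fermat.Agent.S51
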