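import Fermat.Agent.S51.Basic

/-!
# S51 helper file: existence of points of order 3 and 5 over an algebraically closed field
of characteristic zero.
-/

namespace Fermat.Agent.S51

open WeierstrassCurve WeierstrassCurve.Affine

/-- Over an algebraically closed field, every `x` is the x-coordinate of a point of the curve. -/
lemma tex_exists_y {K : Type*} [Field K] [IsAlgClosed K] [CharZero K]
    (W : WeierstrassCurve.Affine K) (hΔ : W.Δ ≠ 0) (x : K) :
    ∃ y : K, W.Nonsingular x y := by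
  obtain ⟨z, hz⟩ := IsAlgClosed.exists_pow_nat_eq (fpol W x) (n := 2) (by norm_num)
  refine ⟨(z - W.a₁ * x - W.a₃) / 2, ?_⟩
  rw [← equation_iff_nonsingular_of_Δ_ne_zero hΔ, equation_iff]
  simp only [fpol, WeierstrassCurve.b₂, WeierstrassCurve.b₄, WeierstrassCurve.b₆] at hz
  linear_combination (1 / 4 : K) * hz

/-- `fpol` in the coordinate `X = 12 x + b₂`. -/
lemma tex_fpol_eq {K : Type*} [Field K] (W : WeierstrassCurve K) (c : K) :
    432 * fpol W c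
      = (12 * c + W.b₂) ^ 3 - 3 * W.c₄ * (12 * c + W.b₂) - 2 * W.c₆ := by
  simp only [fpol, WeierstrassCurve.c₄, WeierstrassCurve.c₆]
  ring

/-- The 3-division polynomial in the coordinate `X = 12 x + b₂`. -/
lemma tex_phipol_eq {K : Type*} [Field K] (W : WeierstrassCurve K) (c : K) :
    6912 * (phipol W c - c * fpol W c)
      = -(12 * c + W.b₂) ^ 4 + 6 * W.c₄ * (12 * c + W.b₂) ^ 2 + 8 * W.c₆ * (12 * c + W.b₂)
        + 3 * W.c₄ ^ 2 := by
  have hb := W.b_relation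
  simp only [fpol, phipol, WeierstrassCurve.c₄, WeierstrassCurve.c₆]
  linear_combination (-1728 : K) * hb

/-- The 3-division polynomial has a root. -/
lemma tex_root4 {K : Type*} [Field K] [IsAlgClosed K] [CharZero K] (b₂ b₄ b₆ b₈ : K) :
    ∃ x : K, 3 * x ^ 4 + b₂ * x ^ 3 + 3 * b₄ * x ^ 2 + 3 * b₆ * x + b₈ = 0 := by
  have h3 : (3 : K) ≠ 0 := by norm_num
  have hdeg : (Polynomial.C (3 : K) * Polynomial.X ^ 4 + Polynomial.C b₂ * Polynomial.X ^ 3
      + Polynomial.C (3 * b₄) * Polynomial.X ^ 2 + Polynomial.C (3 * b₆) * Polynomial.X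
      + Polynomial.C b₈ : Polynomial K).natDegree = 4 := by
    compute_degree!
  obtain ⟨x, hx⟩ := IsAlgClosed.exists_root (Polynomial.C (3 : K) * Polynomial.X ^ 4
      + Polynomial.C b₂ * Polynomial.X ^ 3
      + Polynomial.C (3 * b₄) * Polynomial.X ^ 2 + Polynomial.C (3 * b₆) * Polynomial.X
      + Polynomial.C b₈ : Polynomial K) (by
        intro h0
        have := Polynomial.natDegree_eq_of_degree_eq_some h0
        rw [hdeg] at this
        norm_num at this)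
  refine ⟨x, ?_⟩
  simpa [Polynomial.IsRoot] using hx

theorem tex_exists_three {K : Type*} [Field K] [IsAlgClosed K] [CharZero K] [DecidableEq K]
    (W : WeierstrassCurve.Affine K) (hΔ : W.Δ ≠ 0) :
    ∃ P : W.Point, P ≠ 0 ∧ (3 : ℕ) • P = 0 := by
  obtain ⟨x, hx⟩ := tex_root4 W.b₂ W.b₄ W.b₆ W.b₈
  have h3 : phipol W x = x * fpol W x := by
    simp only [fpol, phipol]
    linear_combination (-1 : K) * hx
  have hf : fpol W x ≠ 0 := by
    intro hf0
    apply hΔ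
    have e1 := tex_fpol_eq W x
    have e2 := tex_phipol_eq W x
    rw [hf0, mul_zero] at e1
    rw [h3, sub_self, mul_zero] at e2
    have hc := W.c_relation
    -- with `X = 12 x + b₂`: `2 c₆ = X³ - 3 c₄ X`, hence `3 (X² - c₄)² = 0`
    have h4 : (12 * x + W.b₂) ^ 2 - W.c₄ = 0 := by
      have : 3 * ((12 * x + W.b₂) ^ 2 - W.c₄) ^ 2 = 0 := by
        linear_combination (-4 * (12 * x + W.b₂)) * e1 - e2
      have h3' : (3 : K) ≠ 0 := by norm_num
      exact pow_eq_zero_iff (two_ne_zero) |>.mp ((mul_eq_zero.mp this).resolve_left h3')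
    have h6 : W.c₆ = -(12 * x + W.b₂) ^ 3 := by
      linear_combination (1 / 2 : K) * e1 + (3 / 2 * (12 * x + W.b₂)) * h4
    have h1728 : (1728 : K) * W.Δ = 0 := by
      rw [hc, h6]
      linear_combination (-(((12 * x + W.b₂) ^ 2) ^ 2 + (12 * x + W.b₂) ^ 2 * W.c₄ + W.c₄ ^ 2)) * h4
    have h1728' : (1728 : K) ≠ 0 := by norm_num
    exact (mul_eq_zero.mp h1728).resolve_left h1728'
  obtain ⟨y, hy⟩ := tex_exists_y W hΔ x
  exact ⟨Point.some x y hy, Point.some_ne_zero _, three_torsion_of_x hy hf h3⟩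

/-- The degree 12 polynomial `A(T)³ u - B(T)² v` has a root when `u ≠ v`. -/
lemma tex_root12 {K : Type*} [Field K] [IsAlgClosed K] (u v : K) (huv : u ≠ v) :
    ∃ t : K, (t ^ 4 - 12 * t ^ 3 + 14 * t ^ 2 + 12 * t + 1) ^ 3 * u
      = (t ^ 6 - 18 * t ^ 5 + 75 * t ^ 4 + 75 * t ^ 2 + 18 * t + 1) ^ 2 * v := by
  have hdeg : ((Polynomial.X ^ 4 - 12 * Polynomial.X ^ 3 + 14 * Polynomial.X ^ 2
        + 12 * Polynomial.X + 1) ^ 3 * Polynomial.C u
      - (Polynomial.X ^ 6 - 18 * Polynomial.X ^ 5 + 75 * Polynomial.X ^ 4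
        + 75 * Polynomial.X ^ 2 + 18 * Polynomial.X + 1) ^ 2 * Polynomial.C v :
        Polynomial K).natDegree = 12 := by
    compute_degree!
    exact sub_ne_zero.mpr huv
  obtain ⟨t, ht⟩ := IsAlgClosed.exists_root ((Polynomial.X ^ 4 - 12 * Polynomial.X ^ 3
        + 14 * Polynomial.X ^ 2 + 12 * Polynomial.X + 1) ^ 3 * Polynomial.C u
      - (Polynomial.X ^ 6 - 18 * Polynomial.X ^ 5 + 75 * Polynomial.X ^ 4
        + 75 * Polynomial.X ^ 2 + 18 * Polynomial.X + 1) ^ 2 * Polynomial.C v :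
        Polynomial K) (by
        intro h0
        have := Polynomial.natDegree_eq_of_degree_eq_some h0
        rw [hdeg] at this
        norm_num at this)
  refine ⟨t, ?_⟩
  simpa [Polynomial.IsRoot, sub_eq_zero] using ht

/-- Auxiliary scaling step: if `A³ c₆² = B² c₄³`, `c₄³ ≠ c₆²` and `A`, `B` are not both zero,
then `c₄ = μ² A` and `c₆ = -μ³ B` for some `μ ≠ 0`. -/
lemma tex_scale {K : Type*} [Field K] [IsAlgClosed K] (c4 c6 A B : K)
    (h : c4 ^ 3 ≠ c6 ^ 2) (ht : A ^ 3 * c6 ^ 2 = B ^ 2 * c4 ^ 3) (hnot : A = 0 → B = 0 → False) :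
    ∃ μ : K, μ ≠ 0 ∧ c4 = μ ^ 2 * A ∧ c6 = -(μ ^ 3 * B) := by
  by_cases hA0 : A = 0
  · have hB0 : B ≠ 0 := fun hB0 => hnot hA0 hB0
    have hc4 : c4 = 0 := by
      have h0 : B ^ 2 * c4 ^ 3 = 0 := by rw [← ht, hA0]; ring
      exact (pow_eq_zero_iff (three_ne_zero)).mp
        ((mul_eq_zero.mp h0).resolve_left (pow_ne_zero 2 hB0))
    have hc6 : c6 ≠ 0 := by
      intro hc6
      apply h
      rw [hc4, hc6]; ring
    obtain ⟨μ, hμ⟩ := IsAlgClosed.exists_pow_nat_eq (-c6 / B) (n := 3) (by norm_num)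
    have hμ0 : μ ≠ 0 := by
      intro hμ0
      rw [hμ0, zero_pow (three_ne_zero), eq_comm, div_eq_zero_iff] at hμ
      rcases hμ with hμ | hμ
      · exact hc6 (neg_eq_zero.mp hμ)
      · exact hB0 hμ
    refine ⟨μ, hμ0, ?_, ?_⟩
    · rw [hc4, hA0, mul_zero]
    · rw [hμ]; field_simp
  · by_cases hB0 : B = 0
    · have hc6 : c6 = 0 := by
        have h0 : A ^ 3 * c6 ^ 2 = 0 := by rw [ht, hB0]; ring
        exact (pow_eq_zero_iff (two_ne_zero)).mp
          ((mul_eq_zero.mp h0).resolve_left (pow_ne_zero 3 hA0))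
      have hc4 : c4 ≠ 0 := by
        intro hc4
        apply h
        rw [hc4, hc6]; ring
      obtain ⟨μ, hμ⟩ := IsAlgClosed.exists_pow_nat_eq (c4 / A) (n := 2) (by norm_num)
      have hμ0 : μ ≠ 0 := by
        intro hμ0
        rw [hμ0, zero_pow (two_ne_zero), eq_comm, div_eq_zero_iff] at hμ
        rcases hμ with hμ | hμ
        · exact hc4 hμ
        · exact hA0 hμ
      refine ⟨μ, hμ0, ?_, ?_⟩
      · rw [hμ]; field_simp
      · rw [hc6, hB0, mul_zero, neg_zero]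
    · have hc4 : c4 ≠ 0 := by
        intro hc4
        have h0 : A ^ 3 * c6 ^ 2 = 0 := by rw [ht, hc4]; ring
        have hc6 : c6 = 0 := (pow_eq_zero_iff (two_ne_zero)).mp
          ((mul_eq_zero.mp h0).resolve_left (pow_ne_zero 3 hA0))
        apply h
        rw [hc4, hc6]; ring
      have hc6 : c6 ≠ 0 := by
        intro hc6
        have h0 : B ^ 2 * c4 ^ 3 = 0 := by rw [← ht, hc6]; ring
        exact hc4 ((pow_eq_zero_iff (three_ne_zero)).mp
          ((mul_eq_zero.mp h0).resolve_left (pow_ne_zero 2 hB0)))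
      refine ⟨-(c6 * A) / (c4 * B), ?_, ?_, ?_⟩
      · exact div_ne_zero (neg_ne_zero.mpr (mul_ne_zero hc6 hA0)) (mul_ne_zero hc4 hB0)
      · field_simp
        linear_combination (-1 : K) * ht
      · field_simp
        linear_combination (-1 : K) * ht

/-- Every pair `(c₄, c₆)` with `c₄³ ≠ c₆²` is, up to scaling by `μ`, the pair of invariants of a
curve in Tate normal form `y² + (1 - t) x y - t y = x³ - t x²`. -/
lemma tex_param {K : Type*} [Field K] [IsAlgClosed K] [CharZero K] (c4 c6 : K)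
    (h : c4 ^ 3 ≠ c6 ^ 2) :
    ∃ t μ : K, t ≠ 0 ∧ μ ≠ 0 ∧
      c4 = μ ^ 2 * (t ^ 4 - 12 * t ^ 3 + 14 * t ^ 2 + 12 * t + 1) ∧
      c6 = -(μ ^ 3 * (t ^ 6 - 18 * t ^ 5 + 75 * t ^ 4 + 75 * t ^ 2 + 18 * t + 1)) := by
  obtain ⟨t, ht⟩ := tex_root12 (c6 ^ 2) (c4 ^ 3) (Ne.symm h)
  have ht0 : t ≠ 0 := by
    intro ht0
    apply h
    rw [ht0] at ht
    simpa using ht.symm
  have hAB : (t ^ 4 - 12 * t ^ 3 + 14 * t ^ 2 + 12 * t + 1) ^ 3
      - (t ^ 6 - 18 * t ^ 5 + 75 * t ^ 4 + 75 * t ^ 2 + 18 * t + 1) ^ 2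
      = 1728 * t ^ 5 * (t ^ 2 - 11 * t - 1) := by ring
  have hA' : t ^ 4 - 12 * t ^ 3 + 14 * t ^ 2 + 12 * t + 1
      = (t ^ 2 - 11 * t - 1) * (t ^ 2 - t + 4) + (55 * t + 5) := by ring
  have hnot : t ^ 4 - 12 * t ^ 3 + 14 * t ^ 2 + 12 * t + 1 = 0 →
      t ^ 6 - 18 * t ^ 5 + 75 * t ^ 4 + 75 * t ^ 2 + 18 * t + 1 = 0 → False := by
    intro hA0 hB0
    have h1 : t ^ 2 - 11 * t - 1 = 0 := by
      have h1728 : (1728 : K) * t ^ 5 * (t ^ 2 - 11 * t - 1) = 0 := by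
        rw [← hAB, hA0, hB0]; ring
      have h1728' : (1728 : K) ≠ 0 := by norm_num
      exact (mul_eq_zero.mp h1728).resolve_left (mul_ne_zero h1728' (pow_ne_zero 5 ht0))
    have h3 : (5 : K) * t ^ 2 = 0 := by
      rw [hA0] at hA'
      linear_combination (5 - (t ^ 2 - t + 4)) * h1 - hA'
    have h5 : (5 : K) ≠ 0 := by norm_num
    exact (mul_ne_zero h5 (pow_ne_zero 2 ht0)) h3
  obtain ⟨μ, hμ, h4, h6⟩ := tex_scale c4 c6 _ _ h ht hnot
  exact ⟨t, μ, ht0, hμ, h4, h6⟩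

theorem tex_exists_five {K : Type*} [Field K] [IsAlgClosed K] [CharZero K] [DecidableEq K]
    (W : WeierstrassCurve.Affine K) (hΔ : W.Δ ≠ 0) :
    ∃ P : W.Point, P ≠ 0 ∧ (5 : ℕ) • P = 0 := by
  have hc : W.c₄ ^ 3 ≠ W.c₆ ^ 2 := by
    intro hc
    apply hΔ
    have h1728 : (1728 : K) * W.Δ = 0 := by rw [W.c_relation, hc, sub_self]
    have h1728' : (1728 : K) ≠ 0 := by norm_num
    exact (mul_eq_zero.mp h1728).resolve_left h1728'
  obtain ⟨t, μ, ht, hμ, h4, h6⟩ := tex_param W.c₄ W.c₆ hc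
  obtain ⟨x₁, hx₁⟩ : ∃ x₁ : K, 12 * x₁ + W.b₂ = μ * (t ^ 2 - 6 * t + 1) :=
    ⟨(μ * (t ^ 2 - 6 * t + 1) - W.b₂) / 12, by ring⟩
  obtain ⟨x₂, hx₂⟩ : ∃ x₂ : K, x₂ = x₁ + μ * t := ⟨_, rfl⟩
  have hX₂ : 12 * x₂ + W.b₂ = μ * (t ^ 2 + 6 * t + 1) := by
    rw [hx₂]; linear_combination hx₁
  have e1 := tex_fpol_eq W x₁
  have e2 := tex_fpol_eq W x₂
  have e3 := tex_phipol_eq W x₁
  have e4 := tex_phipol_eq W x₂
  rw [hx₁, h4, h6] at e1 e3
  rw [hX₂, h4, h6] at e2 e4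
  have hf1 : fpol W x₁ = μ ^ 3 * t ^ 2 := by
    linear_combination (1 / 432 : K) * e1
  have hf2 : fpol W x₂ = μ ^ 3 * t ^ 4 := by
    linear_combination (1 / 432 : K) * e2
  have hp1 : phipol W x₁ = x₂ * fpol W x₁ := by
    rw [hx₂, hf1]
    rw [hf1] at e3
    linear_combination (1 / 6912 : K) * e3
  have hp2 : phipol W x₂ = x₁ * fpol W x₂ := by
    rw [hf2]
    rw [hf2] at e4
    linear_combination (1 / 6912 : K) * e4 + (μ ^ 3 * t ^ 4) * hx₂
  have hμt : μ * t ≠ 0 := mul_ne_zero hμ ht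
  obtain ⟨y₁, hy₁⟩ := tex_exists_y W hΔ x₁
  refine ⟨Point.some x₁ y₁ hy₁, Point.some_ne_zero _, five_torsion_of_x hy₁ x₂ ?_ ?_ hp1 hp2 ?_⟩
  · rw [hf1]; exact mul_ne_zero (pow_ne_zero 3 hμ) (pow_ne_zero 2 ht)
  · rw [hf2]; exact mul_ne_zero (pow_ne_zero 3 hμ) (pow_ne_zero 4 ht)
  · intro h12
    apply hμt
    linear_combination (-1 : K) * hx₂ - h12

end Fermat.Agent.S51
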