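import Fermat.Prelude.Def_FLTPrelim_GaloisRep
import Fermat.Agent.S51.Basic
import Fermat.Agent.S51.Algebra
import Fermat.Agent.S51.TorsExist
import Fermat.Agent.S51.TorsCard

/-!
# S51: the Galois-theoretic part

From Galois-stable lines in the 3-torsion and the 5-torsion we produce rational numbers `ρ`, `h`
satisfying the equation of `X₀(15)` and the `j`-relation.
-/

set_option autoImplicit false
set_option linter.unusedSectionVars false

namespace Fermat.Agent.S51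

open WeierstrassCurve WeierstrassCurve.Affine WeierstrassCurve.Affine.Point

section multiples

variable {K : Type*} [Field K] [DecidableEq K]

/-- multiples of a point of order 3 have the same x-coordinate -/
lemma gal_nsmul_three {W : Affine K} {x y : K} (h : W.Nonsingular x y)
    (h3 : (3 : ℕ) • Point.some x y h = 0) (k : ℕ) :
    k • Point.some x y h = 0 ∨
      ∃ (y' : K) (h' : W.Nonsingular x y'), k • Point.some x y h = Point.some x y' h' := by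
  have hk : k • Point.some x y h = (k % 3) • Point.some x y h := by
    conv_lhs => rw [← Nat.div_add_mod k 3, add_nsmul, mul_nsmul, h3, nsmul_zero, zero_add]
  rw [hk]
  have hlt : k % 3 < 3 := Nat.mod_lt _ (by norm_num)
  interval_cases (k % 3)
  · left; exact zero_nsmul _
  · right; exact ⟨y, h, one_nsmul _⟩
  · right
    refine ⟨W.negY x y, (nonsingular_neg x y).mpr h, ?_⟩
    have h2 : (2 : ℕ) • Point.some x y h = -Point.some x y h := by
      rw [eq_neg_iff_add_eq_zero, ← succ_nsmul]; exact h3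
    rw [h2, Point.neg_some]

/-- multiples of a point `P` of order 5 have the x-coordinate of `P` or of `2P` -/
lemma gal_nsmul_five {W : Affine K} {x₁ y₁ x₂ y₂ : K} (h₁ : W.Nonsingular x₁ y₁)
    (h₂ : W.Nonsingular x₂ y₂) (h5 : (5 : ℕ) • Point.some x₁ y₁ h₁ = 0)
    (h2 : (2 : ℕ) • Point.some x₁ y₁ h₁ = Point.some x₂ y₂ h₂) (k : ℕ) :
    k • Point.some x₁ y₁ h₁ = 0 ∨
      (∃ (y' : K) (h' : W.Nonsingular x₁ y'), k • Point.some x₁ y₁ h₁ = Point.some x₁ y' h') ∨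
      (∃ (y' : K) (h' : W.Nonsingular x₂ y'), k • Point.some x₁ y₁ h₁ = Point.some x₂ y' h') := by
  have hk : k • Point.some x₁ y₁ h₁ = (k % 5) • Point.some x₁ y₁ h₁ := by
    conv_lhs => rw [← Nat.div_add_mod k 5, add_nsmul, mul_nsmul, h5, nsmul_zero, zero_add]
  rw [hk]
  have hlt : k % 5 < 5 := Nat.mod_lt _ (by norm_num)
  interval_cases (k % 5)
  · left; exact zero_nsmul _
  · right; left; exact ⟨y₁, h₁, one_nsmul _⟩
  · right; right; exact ⟨y₂, h₂, h2⟩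
  · right; right
    refine ⟨W.negY x₂ y₂, (nonsingular_neg x₂ y₂).mpr h₂, ?_⟩
    have h3' : (3 : ℕ) • Point.some x₁ y₁ h₁ = -Point.some x₂ y₂ h₂ := by
      rw [← h2, eq_neg_iff_add_eq_zero, ← add_nsmul]; exact h5
    rw [h3', Point.neg_some]
  · right; left
    refine ⟨W.negY x₁ y₁, (nonsingular_neg x₁ y₁).mpr h₁, ?_⟩
    have h4' : (4 : ℕ) • Point.some x₁ y₁ h₁ = -Point.some x₁ y₁ h₁ := by
      rw [eq_neg_iff_add_eq_zero, ← succ_nsmul]; exact h5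
    rw [h4', Point.neg_some]

end multiples

section galois

variable {K : Type*} [Field K] [DecidableEq K] [Algebra ℚ K]
variable (E : Affine ℚ)

/-- The Galois action on an affine point is coordinatewise. -/
lemma gal_smul_some (σ : K ≃ₐ[ℚ] K) {x y : K} (h : (E⁄K).Nonsingular x y) :
    ∃ h' : (E⁄K).Nonsingular (σ x) (σ y),
      σ • (Point.some x y h : (E⁄K).Point) = Point.some (σ x) (σ y) h' :=
  ⟨(E.baseChange_nonsingular (σ.toAlgHom).injective x y).mpr h, rfl⟩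

lemma gal_smul_nsmul (σ : K ≃ₐ[ℚ] K) (k : ℕ) (P : (E⁄K).Point) :
    σ • (k • P) = k • (σ • P) :=
  map_nsmul (Point.map (W' := E) σ.toAlgHom) k P

lemma gal_smul_ne_zero (σ : K ≃ₐ[ℚ] K) {P : (E⁄K).Point} (hP : P ≠ 0) : σ • P ≠ 0 := by
  intro h
  apply hP
  have : σ • P = σ • (0 : (E⁄K).Point) := by rw [h]; rfl
  exact Point.map_injective (W' := E) σ.toAlgHom this

/-- A Galois-stable proper nonzero submodule of the `p`-torsion (`p = 3, 5`) is generated by a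
point `P` all of whose Galois conjugates are multiples of `P`. -/
lemma gal_line (p : ℕ) (hp : p = 3 ∨ p = 5)
    (N : Submodule (ZMod p) (Submodule.torsionBy ℤ (E⁄K).Point p))
    (hstab : ∀ (σ : K ≃ₐ[ℚ] K), ∀ x ∈ N, σ • x ∈ N) (hbot : N ≠ ⊥) (htop : N ≠ ⊤) :
    ∃ P : (E⁄K).Point, P ≠ 0 ∧ p • P = 0 ∧ ∀ σ : K ≃ₐ[ℚ] K, ∃ k : ℕ, σ • P = k • P := by
  have : CharZero K := algebraRat.charZero K
  have htors : ∀ Q : (E⁄K).Point, Q ∈ Submodule.torsionBy ℤ (E⁄K).Point p ↔ p • Q = 0 := by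
    intro Q; rw [Submodule.mem_torsionBy_iff, natCast_zsmul]
  let N' : AddSubgroup (E⁄K).Point :=
    N.toAddSubgroup.map (Submodule.torsionBy ℤ (E⁄K).Point p).subtype.toAddMonoidHom
  have hmem : ∀ x : Submodule.torsionBy ℤ (E⁄K).Point p, (x : (E⁄K).Point) ∈ N' ↔ x ∈ N := by
    intro x
    constructor
    · rintro ⟨z, hz, hzx⟩
      have : z = x := Subtype.ext hzx
      rw [← this]; exact hz
    · intro hx; exact ⟨x, hx, rfl⟩
  obtain ⟨x, hxN, hx0⟩ := (Submodule.ne_bot_iff N).mp hbot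
  obtain ⟨y, hyN⟩ : ∃ y, y ∉ N := by
    by_contra hall
    push Not at hall
    exact htop (eq_top_iff.mpr fun y _ => hall y)
  have hx0' : (x : (E⁄K).Point) ≠ 0 := fun h => hx0 (Subtype.ext h)
  have hcyc := tca_cyclic (E⁄K) p hp N'
    (by rintro Q ⟨z, -, rfl⟩; exact (htors _).mp z.2)
    (x : (E⁄K).Point) ((hmem x).mpr hxN) hx0'
    (y : (E⁄K).Point) ((htors _).mp y.2) (fun h => hyN ((hmem y).mp h))
  refine ⟨x, hx0', (htors _).mp x.2, fun σ => hcyc _ ?_⟩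
  exact (hmem (σ • x)).mpr (hstab σ x hxN)

/-- Existence of a Galois-stable line from the failure of irreducibility. -/
lemma gal_exists_line [IsAlgClosed K] (hΔ : E.Δ ≠ 0) (p : ℕ) (hp : p = 3 ∨ p = 5)
    (hirr : ¬ GaloisRepIsIrreducible (K := K) ℚ E p) :
    ∃ P : (E⁄K).Point, P ≠ 0 ∧ p • P = 0 ∧ ∀ σ : K ≃ₐ[ℚ] K, ∃ k : ℕ, σ • P = k • P := by
  have : CharZero K := algebraRat.charZero K
  have hΔK : (E⁄K).Δ ≠ 0 := by
    change (E.map (algebraMap ℚ K)).Δ ≠ 0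
    rw [WeierstrassCurve.map_Δ]
    exact (map_ne_zero (algebraMap ℚ K)).mpr hΔ
  have hnt : Nontrivial (Submodule.torsionBy ℤ (E⁄K).Point p) := by
    obtain ⟨P, hP0, hP⟩ : ∃ P : (E⁄K).Point, P ≠ 0 ∧ p • P = 0 := by
      rcases hp with rfl | rfl
      · exact tex_exists_three (E⁄K) hΔK
      · exact tex_exists_five (E⁄K) hΔK
    have hPmem : P ∈ Submodule.torsionBy ℤ (E⁄K).Point p := by
      rw [Submodule.mem_torsionBy_iff, natCast_zsmul]; exact hP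
    exact ⟨⟨⟨P, hPmem⟩, 0, fun h => hP0 (congrArg Subtype.val h)⟩⟩
  unfold GaloisRepIsIrreducible at hirr
  push Not at hirr
  obtain ⟨N, hstab, hbot, htop⟩ := hirr hnt
  exact gal_line E p hp N hstab hbot htop

/-- The invariants of the base change are the images of the invariants. -/
lemma gal_b₂ : (E⁄K).b₂ = algebraMap ℚ K E.b₂ := WeierstrassCurve.map_b₂ E (algebraMap ℚ K)
lemma gal_b₄ : (E⁄K).b₄ = algebraMap ℚ K E.b₄ := WeierstrassCurve.map_b₄ E (algebraMap ℚ K)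
lemma gal_b₆ : (E⁄K).b₆ = algebraMap ℚ K E.b₆ := WeierstrassCurve.map_b₆ E (algebraMap ℚ K)
lemma gal_b₈ : (E⁄K).b₈ = algebraMap ℚ K E.b₈ := WeierstrassCurve.map_b₈ E (algebraMap ℚ K)
lemma gal_Δ : (E⁄K).Δ = algebraMap ℚ K E.Δ := WeierstrassCurve.map_Δ E (algebraMap ℚ K)

lemma gal_fpol (σ : K ≃ₐ[ℚ] K) (x : K) : σ (fpol (E⁄K) x) = fpol (E⁄K) (σ x) := by
  simp only [fpol, gal_b₂, gal_b₄, gal_b₆, map_add, map_mul, map_pow, map_ofNat, AlgEquiv.commutes]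

/-- The main output of the Galois-theoretic part: rational numbers `ρ`, `h` on `X₀(15)`. -/
theorem gal_main [IsAlgClosed K] [IsGalois ℚ K] (hΔ : E.Δ ≠ 0)
    (h3 : ¬ GaloisRepIsIrreducible (K := K) ℚ E 3)
    (h5 : ¬ GaloisRepIsIrreducible (K := K) ℚ E 5) :
    ∃ ρ h : ℚ, ρ ≠ 0 ∧ h ≠ 0 ∧ ρ ^ 5 * (ρ + 9) + 5 * ρ ^ 3 * h + (ρ - 1) * h ^ 2 = 0 ∧
      E.c₄ ^ 3 * h = E.Δ * (h + 27) * (h + 3) ^ 3 := by
  have : CharZero K := algebraRat.charZero K
  obtain ⟨P₃, hP₃0, hP₃, hσ₃⟩ := gal_exists_line (K := K) E hΔ 3 (Or.inl rfl) h3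
  obtain ⟨P₅, hP₅0, hP₅, hσ₅⟩ := gal_exists_line (K := K) E hΔ 5 (Or.inr rfl) h5
  obtain ⟨x₀, y₀, hns₀, rfl, hf0, h30⟩ := three_torsion_x P₃ hP₃0 hP₃
  obtain ⟨x₁, y₁, hns₁, x₂, y₂, hns₂, rfl, h2P, hf1, hf2, h51, h52, h12⟩ :=
    five_torsion_x P₅ hP₅0 hP₅
  -- Galois invariance of x₀
  have hx0 : ∀ σ : K ≃ₐ[ℚ] K, σ x₀ = x₀ := by
    intro σ
    obtain ⟨k, hk⟩ := hσ₃ σ
    obtain ⟨h', hσP⟩ := gal_smul_some E σ hns₀
    rcases gal_nsmul_three hns₀ hP₃ k with h0 | ⟨y', h'', hkP⟩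
    · exact absurd (hk.trans h0) (gal_smul_ne_zero E σ hP₃0)
    · rw [hσP, hkP] at hk
      injection hk
  -- Galois permutes {x₁, x₂}
  have hx12 : ∀ σ : K ≃ₐ[ℚ] K, (σ x₁ = x₁ ∧ σ x₂ = x₂) ∨ (σ x₁ = x₂ ∧ σ x₂ = x₁) := by
    intro σ
    obtain ⟨k, hk⟩ := hσ₅ σ
    have h1 : σ x₁ = x₁ ∨ σ x₁ = x₂ := by
      obtain ⟨h', hσP⟩ := gal_smul_some E σ hns₁
      rcases gal_nsmul_five hns₁ hns₂ hP₅ h2P k with h0 | ⟨y', h'', hkP⟩ | ⟨y', h'', hkP⟩
      · exact absurd (hk.trans h0) (gal_smul_ne_zero E σ hP₅0)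
      · left; rw [hσP, hkP] at hk; injection hk
      · right; rw [hσP, hkP] at hk; injection hk
    have h2 : σ x₂ = x₁ ∨ σ x₂ = x₂ := by
      obtain ⟨h', hσP⟩ := gal_smul_some E σ hns₂
      have hk2 : σ • (Point.some x₂ y₂ hns₂ : (E⁄K).Point)
          = (k * 2) • Point.some x₁ y₁ hns₁ := by
        rw [← h2P, gal_smul_nsmul, hk, mul_nsmul]
      rcases gal_nsmul_five hns₁ hns₂ hP₅ h2P (k * 2) with h0 | ⟨y', h'', hkP⟩ | ⟨y', h'', hkP⟩
      · exact absurd (hk2.trans h0) (gal_smul_ne_zero E σ (Point.some_ne_zero _))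
      · left; rw [hσP, hkP] at hk2; injection hk2
      · right; rw [hσP, hkP] at hk2; injection hk2
    have hinj : σ x₁ ≠ σ x₂ := fun h => h12 (σ.injective h)
    rcases h1 with h1 | h1 <;> rcases h2 with h2 | h2
    · exact absurd (h1.trans h2.symm) hinj
    · exact Or.inl ⟨h1, h2⟩
    · exact Or.inr ⟨h1, h2⟩
    · exact absurd (h1.trans h2.symm) hinj
  -- the invariants
  obtain ⟨ρ, hρ⟩ : (x₁ - x₂) ^ 2 / ((x₀ - x₁) * (x₀ - x₂)) ∈ Set.range (algebraMap ℚ K) := by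
    rw [InfiniteGalois.mem_range_algebraMap_iff_fixed]
    intro σ
    rw [map_div₀, map_pow, map_mul, map_sub, map_sub, map_sub, hx0 σ]
    rcases hx12 σ with ⟨h1, h2⟩ | ⟨h1, h2⟩
    · rw [h1, h2]
    · rw [h1, h2]; ring
  obtain ⟨h, hh⟩ : (E⁄K).Δ / (fpol (E⁄K) x₀) ^ 2 ∈ Set.range (algebraMap ℚ K) := by
    rw [InfiniteGalois.mem_range_algebraMap_iff_fixed]
    intro σ
    rw [map_div₀, map_pow, gal_fpol, hx0 σ, gal_Δ, AlgEquiv.commutes]
  -- the algebraic identities over K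
  have hΔK : (E⁄K).Δ ≠ 0 := by
    rw [gal_Δ]; exact (map_ne_zero (algebraMap ℚ K)).mpr hΔ
  have hA3 := alg_three (E⁄K).b₂ (E⁄K).b₄ (E⁄K).b₆ (E⁄K).b₈ x₀ (E⁄K).Δ (algebraMap ℚ K h)
    (E⁄K).b_relation rfl hf0 h30 hh
  have hA15 := alg_fifteen (E⁄K).b₂ (E⁄K).b₄ (E⁄K).b₆ (E⁄K).b₈ x₀ x₁ x₂ (E⁄K).Δ
    (algebraMap ℚ K h) (algebraMap ℚ K ρ) (E⁄K).b_relation rfl hf0 h30 hf1 hf2 h51 h52 h12 hh hρ
  obtain ⟨hΦ, hρ0⟩ := hA15
  refine ⟨ρ, h, ?_, ?_, ?_, ?_⟩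
  · rintro rfl; exact hρ0 (_root_.map_zero _)
  · rintro rfl
    rw [_root_.map_zero] at hh
    have h0 := hh.symm
    rw [div_eq_zero_iff] at h0
    rcases h0 with h0 | h0
    · exact hΔK h0
    · exact hf0 ((pow_eq_zero_iff two_ne_zero).mp h0)
  · apply (algebraMap ℚ K).injective
    rw [_root_.map_zero]
    simp only [map_add, map_mul, map_pow, map_sub, map_ofNat, map_one]
    exact hΦ
  · apply (algebraMap ℚ K).injective
    rw [gal_Δ, gal_b₂, gal_b₄] at hA3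
    rw [WeierstrassCurve.c₄]
    simp only [map_add, map_sub, map_mul, map_pow, map_ofNat]
    exact hA3

end galois

end Fermat.Agent.S51
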